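import Mathlib

/-!
# Cohomology of `Γ₀(N)` with coefficients in a representation of the monoid of integral matrices

`ρ : Matrix (Fin 2) (Fin 2) ℤ →* Module.End R V` is an arbitrary monoid homomorphism.  Hecke
operators are given by Hecke families (`HFam`).
-/

set_option autoImplicit false

noncomputable section

namespace Fermat.Agent.H24ES

open CongruenceSubgroup Matrix
open scoped MatrixGroups

/-- integral two by two matrices -/
abbrev M2 := Matrix (Fin 2) (Fin 2) ℤ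

/-- the integral matrix of an element of `Γ₀(N)` -/
def gm {N : ℕ} (γ : Gamma0 N) : M2 := ((γ : SL(2, ℤ)) : Matrix (Fin 2) (Fin 2) ℤ)

section gm

variable {N : ℕ}

@[simp] lemma gm_one : gm (1 : Gamma0 N) = 1 := rfl

lemma gm_mul (γ δ : Gamma0 N) : gm (γ * δ) = gm γ * gm δ := rfl

@[simp] lemma det_gm (γ : Gamma0 N) : (gm γ).det = 1 := (γ : SL(2, ℤ)).2

lemma gm_injective : Function.Injective (gm : Gamma0 N → M2) := by
  intro γ δ h
  exact Subtype.ext (Subtype.ext h)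

lemma gm_mul_adj (γ : Gamma0 N) : gm γ * (gm γ).adjugate = 1 := by
  rw [Matrix.mul_adjugate, det_gm, one_smul]

lemma adj_mul_gm (γ : Gamma0 N) : (gm γ).adjugate * gm γ = 1 := by
  rw [Matrix.adjugate_mul, det_gm, one_smul]

lemma gm_inv (γ : Gamma0 N) : gm γ⁻¹ = (gm γ).adjugate := by
  have h1 : gm γ⁻¹ * gm γ = 1 := by rw [← gm_mul, inv_mul_cancel, gm_one]
  calc gm γ⁻¹ = gm γ⁻¹ * (gm γ * (gm γ).adjugate) := by rw [gm_mul_adj, mul_one]
    _ = (gm γ).adjugate := by rw [← mul_assoc, h1, one_mul]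

lemma mul_right_cancel_det {A B C : M2} (hC : C.det ≠ 0) (h : A * C = B * C) : A = B := by
  have h1 : C.det • A = C.det • B := by
    have h2 : ∀ D : M2, C.det • D = D * C * C.adjugate := by
      intro D; rw [mul_assoc, Matrix.mul_adjugate, Matrix.mul_smul, mul_one]
    rw [h2, h2, h]
  ext i j
  have := congrFun (congrFun h1 i) j
  simp only [Matrix.smul_apply, smul_eq_mul] at this
  exact mul_left_cancel₀ hC this

lemma cancel_right {γ δ : Gamma0 N} {A : M2} (hA : A.det ≠ 0) (h : gm γ * A = gm δ * A) :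
    γ = δ := gm_injective (mul_right_cancel_det hA h)

end gm

/-- A Hecke family: representatives of a finite union of cosets `Γ₀(N) α`, stable under right
multiplication by `Γ₀(N)`. -/
structure HFam (N : ℕ) (ι : Type*) where
  /-- the representatives -/
  α : ι → M2
  det_pos : ∀ i, 0 < (α i).det
  /-- the permutation -/
  σ : Gamma0 N → ι → ι
  /-- the cocycle -/
  τ : Gamma0 N → ι → Gamma0 N
  spec : ∀ γ i, α i * gm γ = gm (τ γ i) * α (σ γ i)
  uniq : ∀ i j (γ : Gamma0 N), α i = gm γ * α j → i = j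

namespace HFam

variable {N : ℕ} {ι : Type*}

/-- constructor by choice -/
def mk' (α : ι → M2) (det_pos : ∀ i, 0 < (α i).det)
    (h : ∀ (γ : Gamma0 N) i, ∃ (j : ι) (γ' : Gamma0 N), α i * gm γ = gm γ' * α j)
    (uniq : ∀ i j (γ : Gamma0 N), α i = gm γ * α j → i = j) : HFam N ι where
  α := α
  det_pos := det_pos
  σ γ i := (h γ i).choose
  τ γ i := (h γ i).choose_spec.choose
  spec γ i := (h γ i).choose_spec.choose_spec
  uniq := uniq

@[simp] lemma mk'_α (α : ι → M2) (det_pos : ∀ i, 0 < (α i).det)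
    (h : ∀ (γ : Gamma0 N) i, ∃ (j : ι) (γ' : Gamma0 N), α i * gm γ = gm γ' * α j)
    (uniq : ∀ i j (γ : Gamma0 N), α i = gm γ * α j → i = j) :
    (mk' α det_pos h uniq).α = α := rfl

variable (F : HFam N ι)

lemma det_ne (i : ι) : (F.α i).det ≠ 0 := (F.det_pos i).ne'

/-- uniqueness of decompositions -/
lemma uniq' {i j : ι} {γ δ : Gamma0 N} (h : gm γ * F.α i = gm δ * F.α j) : i = j ∧ γ = δ := by
  have h1 : F.α i = gm (γ⁻¹ * δ) * F.α j := by
    rw [gm_mul, mul_assoc, ← h, ← mul_assoc, gm_inv, adj_mul_gm, one_mul]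
  have h2 := F.uniq i j _ h1
  subst h2
  exact ⟨rfl, cancel_right (F.det_ne i) h⟩

lemma eq_of_spec {γ : Gamma0 N} {i j : ι} {δ : Gamma0 N} (h : F.α i * gm γ = gm δ * F.α j) :
    F.σ γ i = j ∧ F.τ γ i = δ := by
  have := F.spec γ i
  rw [h] at this
  obtain ⟨h1, h2⟩ := F.uniq' this
  exact ⟨h1.symm, h2.symm⟩

lemma σ_one (i : ι) : F.σ 1 i = i := (F.eq_of_spec (γ := 1) (i := i) (j := i) (δ := 1)
  (by simp)).1

lemma τ_one (i : ι) : F.τ 1 i = 1 := (F.eq_of_spec (γ := 1) (i := i) (j := i) (δ := 1)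
  (by simp)).2

lemma spec_mul (γ δ : Gamma0 N) (i : ι) :
    F.α i * gm (γ * δ) = gm (F.τ γ i * F.τ δ (F.σ γ i)) * F.α (F.σ δ (F.σ γ i)) := by
  rw [gm_mul, ← mul_assoc, F.spec, mul_assoc, F.spec, gm_mul, mul_assoc]

lemma σ_mul (γ δ : Gamma0 N) (i : ι) : F.σ (γ * δ) i = F.σ δ (F.σ γ i) :=
  (F.eq_of_spec (F.spec_mul γ δ i)).1

lemma τ_mul (γ δ : Gamma0 N) (i : ι) : F.τ (γ * δ) i = F.τ γ i * F.τ δ (F.σ γ i) :=
  (F.eq_of_spec (F.spec_mul γ δ i)).2

/-- the permutation as an equivalence -/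
def perm (γ : Gamma0 N) : ι ≃ ι where
  toFun := F.σ γ
  invFun := F.σ γ⁻¹
  left_inv i := by rw [← F.σ_mul, mul_inv_cancel, F.σ_one]
  right_inv i := by rw [← F.σ_mul, inv_mul_cancel, F.σ_one]

@[simp] lemma perm_apply (γ : Gamma0 N) (i : ι) : F.perm γ i = F.σ γ i := rfl

/-- elements equal to `-1` -/
lemma neg_one_spec {γ : Gamma0 N} (hγ : gm γ = -1) (i : ι) : F.σ γ i = i ∧ F.τ γ i = γ :=
  F.eq_of_spec (by rw [hγ]; simp)

/-- the adjoint relation -/
lemma adj_spec (γ : Gamma0 N) (i : ι) :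
    (F.α i).adjugate * gm (F.τ γ i) = gm γ * (F.α (F.σ γ i)).adjugate := by
  have h := congrArg Matrix.adjugate (F.spec γ i)
  rw [Matrix.adjugate_mul_distrib, Matrix.adjugate_mul_distrib] at h
  calc (F.α i).adjugate * gm (F.τ γ i)
      = gm γ * ((gm γ).adjugate * (F.α i).adjugate) * gm (F.τ γ i) := by
        rw [← mul_assoc (gm γ), gm_mul_adj, one_mul]
    _ = gm γ * (F.α (F.σ γ i)).adjugate := by
        rw [h, mul_assoc, mul_assoc, adj_mul_gm, mul_one]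

end HFam

/-! ### Cocycles -/

section Cocycle

variable {R V : Type*} [CommRing R] [AddCommGroup V] [Module R V]
variable (N : ℕ) (ρ : M2 →* Module.End R V)

/-- Cocycles of `Γ₀(N)` vanishing at `-1`. -/
def Z1 : Submodule R (Gamma0 N → V) where
  carrier := {u | (∀ γ δ : Gamma0 N, u (γ * δ) = u γ + ρ (gm γ) (u δ)) ∧
    ∀ γ : Gamma0 N, gm γ = -1 → u γ = 0}
  add_mem' := by
    rintro u v ⟨h1, h2⟩ ⟨h3, h4⟩
    refine ⟨fun γ δ => ?_, fun γ hγ => ?_⟩
    · simp only [Pi.add_apply, h1, h3, map_add]; abel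
    · simp only [Pi.add_apply, h2 γ hγ, h4 γ hγ, add_zero]
  zero_mem' := ⟨fun γ δ => by simp, fun γ _ => rfl⟩
  smul_mem' := by
    rintro c u ⟨h1, h2⟩
    refine ⟨fun γ δ => ?_, fun γ hγ => ?_⟩
    · simp only [Pi.smul_apply, h1, map_smul, smul_add]
    · simp only [Pi.smul_apply, h2 γ hγ, smul_zero]

/-- the coboundary map -/
def del : V →ₗ[R] (Gamma0 N → V) where
  toFun w γ := ρ (gm γ) w - w
  map_add' a b := by funext γ; simp only [map_add, Pi.add_apply]; abel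
  map_smul' c a := by funext γ; simp only [map_smul, Pi.smul_apply, RingHom.id_apply, smul_sub]

@[simp] lemma del_apply (w : V) (γ : Gamma0 N) : del N ρ w γ = ρ (gm γ) w - w := rfl

/-- coboundaries -/
def B1 : Submodule R (Gamma0 N → V) := LinearMap.range (del N ρ)

/-- the first cohomology group (of the image of `Γ₀(N)` in `PSL₂`, if `ρ(-1) = 1`) -/
abbrev H1 : Type _ := (Z1 N ρ) ⧸ (B1 N ρ).comap (Z1 N ρ).subtype

variable {N ρ}

lemma Z1.mul {u : Gamma0 N → V} (hu : u ∈ Z1 N ρ) (γ δ : Gamma0 N) :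
    u (γ * δ) = u γ + ρ (gm γ) (u δ) := hu.1 γ δ

lemma Z1.one {u : Gamma0 N → V} (hu : u ∈ Z1 N ρ) : u 1 = 0 := by
  have := hu.1 1 1
  rw [mul_one, gm_one, map_one] at this
  simpa using this

lemma Z1.inv {u : Gamma0 N → V} (hu : u ∈ Z1 N ρ) (γ : Gamma0 N) :
    u γ⁻¹ = - ρ (gm γ⁻¹) (u γ) := by
  have h := hu.1 γ⁻¹ γ
  rw [inv_mul_cancel, Z1.one hu] at h
  exact eq_neg_of_add_eq_zero_left h.symm

lemma rho_gm_mul (γ δ : Gamma0 N) (v : V) : ρ (gm (γ * δ)) v = ρ (gm γ) (ρ (gm δ) v) := by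
  rw [gm_mul, map_mul]; rfl

lemma rho_gm_inv_gm (γ : Gamma0 N) (v : V) : ρ (gm γ⁻¹) (ρ (gm γ) v) = v := by
  rw [← rho_gm_mul, inv_mul_cancel, gm_one, map_one]; rfl

lemma rho_gm_gm_inv (γ : Gamma0 N) (v : V) : ρ (gm γ) (ρ (gm γ⁻¹) v) = v := by
  rw [← rho_gm_mul, mul_inv_cancel, gm_one, map_one]; rfl

lemma del_mem_Z1 (hρ : ρ (-1) = 1) (w : V) : del N ρ w ∈ Z1 N ρ := by
  refine ⟨fun γ δ => ?_, fun γ hγ => ?_⟩
  · simp only [del_apply, rho_gm_mul, map_sub]; abel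
  · rw [del_apply, hγ, hρ]; simp

lemma B1_le_Z1 (hρ : ρ (-1) = 1) : B1 N ρ ≤ Z1 N ρ := by
  rintro _ ⟨w, rfl⟩
  exact del_mem_Z1 hρ w

end Cocycle

/-! ### Hecke operators -/

section Hecke

variable {R V : Type*} [CommRing R] [AddCommGroup V] [Module R V]
variable {N : ℕ} {ι : Type*} [Fintype ι]

/-- the Hecke operator on functions -/
def HFam.op (F : HFam N ι) (ρ : M2 →* Module.End R V) : (Gamma0 N → V) →ₗ[R] (Gamma0 N → V) where
  toFun u γ := ∑ i, ρ (F.α i).adjugate (u (F.τ γ i))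
  map_add' u v := by
    funext γ
    simp only [Pi.add_apply, map_add, Finset.sum_add_distrib]
  map_smul' c u := by
    funext γ
    simp only [Pi.smul_apply, map_smul, Finset.smul_sum, RingHom.id_apply]

/-- the Hecke operator on `V` itself (degree zero) -/
def HFam.op0 (F : HFam N ι) (ρ : M2 →* Module.End R V) : V →ₗ[R] V :=
  ∑ i, ρ (F.α i).adjugate

variable (F : HFam N ι) (ρ : M2 →* Module.End R V)

lemma HFam.op_apply (u : Gamma0 N → V) (γ : Gamma0 N) :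
    F.op ρ u γ = ∑ i, ρ (F.α i).adjugate (u (F.τ γ i)) := rfl

lemma HFam.op0_apply (w : V) : F.op0 ρ w = ∑ i, ρ (F.α i).adjugate w := by
  simp [HFam.op0, LinearMap.sum_apply]

omit [Fintype ι] in
lemma rho_adj_tau (γ : Gamma0 N) (i : ι) (v : V) :
    ρ (F.α i).adjugate (ρ (gm (F.τ γ i)) v) = ρ (gm γ) (ρ (F.α (F.σ γ i)).adjugate v) := by
  have h := congrArg ρ (F.adj_spec γ i)
  rw [map_mul, map_mul] at h
  exact LinearMap.congr_fun h v

lemma HFam.op_mem_Z1 {u : Gamma0 N → V} (hu : u ∈ Z1 N ρ) : F.op ρ u ∈ Z1 N ρ := by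
  refine ⟨fun γ δ => ?_, fun γ hγ => ?_⟩
  · simp only [F.op_apply]
    rw [map_sum, ← Equiv.sum_comp (F.perm γ) (fun i => ρ (gm γ) (ρ (F.α i).adjugate (u (F.τ δ i)))),
      ← Finset.sum_add_distrib]
    refine Finset.sum_congr rfl fun i _ => ?_
    rw [F.τ_mul, hu.1, map_add, rho_adj_tau, F.perm_apply]
  · rw [F.op_apply]
    refine Finset.sum_eq_zero fun i _ => ?_
    rw [(F.neg_one_spec hγ i).2, hu.2 γ hγ, map_zero]

lemma HFam.op_del (w : V) : F.op ρ (del N ρ w) = del N ρ (F.op0 ρ w) := by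
  funext γ
  simp only [F.op_apply, del_apply, map_sub, rho_adj_tau, Finset.sum_sub_distrib, F.op0_apply,
    map_sum]
  congr 1
  exact Equiv.sum_comp (F.perm γ) (fun i => ρ (gm γ) (ρ (F.α i).adjugate w))

lemma HFam.op_mem_B1 {u : Gamma0 N → V} (hu : u ∈ B1 N ρ) : F.op ρ u ∈ B1 N ρ := by
  obtain ⟨w, rfl⟩ := hu
  exact ⟨F.op0 ρ w, (F.op_del ρ w).symm⟩

/-- the Hecke operator on cocycles -/
def HFam.opZ : Z1 N ρ →ₗ[R] Z1 N ρ :=
  (F.op ρ).restrict (fun _ hu => F.op_mem_Z1 ρ hu)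

@[simp] lemma HFam.coe_opZ (u : Z1 N ρ) : (F.opZ ρ u : Gamma0 N → V) = F.op ρ u := rfl

/-- the Hecke operator on cohomology -/
def HFam.opH : H1 N ρ →ₗ[R] H1 N ρ :=
  Submodule.mapQ _ _ (F.opZ ρ) (by
    intro u hu
    rw [Submodule.mem_comap] at hu ⊢
    exact F.op_mem_B1 ρ hu)

@[simp] lemma HFam.opH_mk (u : Z1 N ρ) :
    F.opH ρ (Submodule.Quotient.mk u) = Submodule.Quotient.mk (F.opZ ρ u) := rfl

/-! ### Change of representatives -/

variable {ι' : Type*} [Fintype ι'] (F' : HFam N ι')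

/-- Two Hecke families representing the same set give cohomologous operators. -/
lemma HFam.op_sub_mem_B1 (π : ι ≃ ι') (g : ι → Gamma0 N)
    (hg : ∀ i, F.α i = gm (g i) * F'.α (π i)) {u : Gamma0 N → V} (hu : u ∈ Z1 N ρ) :
    F.op ρ u - F'.op ρ u ∈ B1 N ρ := by
  have hσ : ∀ γ i, F'.σ γ (π i) = π (F.σ γ i) ∧ F'.τ γ (π i) = (g i)⁻¹ * F.τ γ i * g (F.σ γ i) := by
    intro γ i
    apply F'.eq_of_spec
    have h1 := F.spec γ i
    rw [hg i, hg (F.σ γ i)] at h1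
    calc F'.α (π i) * gm γ = gm (g i)⁻¹ * (gm (g i) * F'.α (π i) * gm γ) := by
          rw [mul_assoc, ← mul_assoc, gm_inv, adj_mul_gm, one_mul]
      _ = gm ((g i)⁻¹ * F.τ γ i * g (F.σ γ i)) * F'.α (π (F.σ γ i)) := by
          rw [h1, gm_mul, gm_mul, mul_assoc, mul_assoc]
  refine ⟨-∑ i, ρ (F.α i).adjugate (u (g i)), ?_⟩
  funext γ
  rw [del_apply, map_neg, sub_neg_eq_add, map_sum, Pi.sub_apply, F.op_apply, F'.op_apply]
  rw [← Equiv.sum_comp π (fun i => ρ (F'.α i).adjugate (u (F'.τ γ i))),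
    ← Equiv.sum_comp (F.perm γ) (fun i => ρ (gm γ) (ρ (F.α i).adjugate (u (g i))))]
  have key : ∀ i, ρ (F.α i).adjugate (u (F.τ γ i)) =
      ρ (F.α i).adjugate (u (g i)) + ρ (F'.α (π i)).adjugate (u (F'.τ γ (π i)))
        - ρ (gm γ) (ρ (F.α (F.perm γ i)).adjugate (u (g (F.perm γ i)))) := by
    intro i
    have e : F.τ γ i * g (F.σ γ i) = g i * F'.τ γ (π i) := by
      rw [(hσ γ i).2]; group
    have h1 : u (F.τ γ i) + ρ (gm (F.τ γ i)) (u (g (F.σ γ i))) =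
        u (g i) + ρ (gm (g i)) (u (F'.τ γ (π i))) := by
      rw [← hu.1, ← hu.1, e]
    have h2 := congrArg (ρ (F.α i).adjugate) h1
    rw [map_add, map_add, rho_adj_tau] at h2
    have h3 : ρ (F.α i).adjugate (ρ (gm (g i)) (u (F'.τ γ (π i)))) =
        ρ (F'.α (π i)).adjugate (u (F'.τ γ (π i))) := by
      have h4 : (F.α i).adjugate * gm (g i) = (F'.α (π i)).adjugate := by
        rw [hg i, Matrix.adjugate_mul_distrib, mul_assoc, adj_mul_gm, mul_one]
      rw [← h4, map_mul]; rfl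
    rw [h3] at h2
    rw [F.perm_apply, ← h2]; abel
  rw [Finset.sum_congr rfl (fun i _ => key i), Finset.sum_sub_distrib, Finset.sum_add_distrib]
  abel

/-- equality of the operators on cohomology -/
theorem HFam.opH_eq (π : ι ≃ ι') (g : ι → Gamma0 N)
    (hg : ∀ i, F.α i = gm (g i) * F'.α (π i)) : F.opH ρ = F'.opH ρ := by
  apply LinearMap.ext
  intro x
  obtain ⟨u, rfl⟩ := Submodule.Quotient.mk_surjective _ x
  rw [F.opH_mk, F'.opH_mk, Submodule.Quotient.eq, Submodule.mem_comap]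
  exact F.op_sub_mem_B1 ρ F' π g hg u.2

end Hecke

/-! ### Functoriality -/

section Funct

variable {R V V' : Type*} [CommRing R] [AddCommGroup V] [Module R V] [AddCommGroup V']
  [Module R V'] {N : ℕ} {ρ : M2 →* Module.End R V} {ρ' : M2 →* Module.End R V'}

lemma comp_mem_Z1 (f : V →ₗ[R] V') (hf : ∀ (A : M2) (v : V), f (ρ A v) = ρ' A (f v))
    {u : Gamma0 N → V} (hu : u ∈ Z1 N ρ) : (fun γ => f (u γ)) ∈ Z1 N ρ' := by
  refine ⟨fun γ δ => ?_, fun γ hγ => ?_⟩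
  · show f (u (γ * δ)) = f (u γ) + ρ' (gm γ) (f (u δ))
    rw [hu.1, map_add, hf]
  · show f (u γ) = 0
    rw [hu.2 γ hγ, map_zero]

/-- functoriality on cocycles -/
def mapZ (N : ℕ) (f : V →ₗ[R] V') (hf : ∀ (A : M2) (v : V), f (ρ A v) = ρ' A (f v)) :
    Z1 N ρ →ₗ[R] Z1 N ρ' where
  toFun u := ⟨fun γ => f (u.1 γ), comp_mem_Z1 f hf u.2⟩
  map_add' u v := by
    apply Subtype.ext; funext γ
    simp
  map_smul' c u := by
    apply Subtype.ext; funext γ
    simp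

@[simp] lemma coe_mapZ (f : V →ₗ[R] V') (hf : ∀ (A : M2) (v : V), f (ρ A v) = ρ' A (f v))
    (u : Z1 N ρ) (γ : Gamma0 N) : (mapZ N f hf u : Gamma0 N → V') γ = f (u.1 γ) := rfl

/-- functoriality on cohomology -/
def mapH (N : ℕ) (f : V →ₗ[R] V') (hf : ∀ (A : M2) (v : V), f (ρ A v) = ρ' A (f v)) :
    H1 N ρ →ₗ[R] H1 N ρ' :=
  Submodule.mapQ _ _ (mapZ N f hf) (by
    intro u hu
    rw [Submodule.mem_comap] at hu ⊢
    obtain ⟨w, hw⟩ := hu
    refine ⟨f w, ?_⟩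
    funext γ
    have h1 := congrFun hw γ
    simp only [del_apply, Submodule.subtype_apply, coe_mapZ] at h1 ⊢
    rw [← h1, map_sub, hf])

@[simp] lemma mapH_mk (f : V →ₗ[R] V') (hf : ∀ (A : M2) (v : V), f (ρ A v) = ρ' A (f v))
    (u : Z1 N ρ) : mapH N f hf (Submodule.Quotient.mk u) = Submodule.Quotient.mk (mapZ N f hf u) :=
  rfl

variable {ι : Type*} [Fintype ι]

lemma HFam.opZ_mapZ (F : HFam N ι) (f : V →ₗ[R] V')
    (hf : ∀ (A : M2) (v : V), f (ρ A v) = ρ' A (f v)) (u : Z1 N ρ) :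
    F.opZ ρ' (mapZ N f hf u) = mapZ N f hf (F.opZ ρ u) := by
  apply Subtype.ext
  funext γ
  rw [coe_mapZ, F.coe_opZ, F.coe_opZ, F.op_apply, F.op_apply, map_sum]
  refine Finset.sum_congr rfl fun i _ => ?_
  rw [coe_mapZ, hf]

lemma HFam.opH_mapH (F : HFam N ι) (f : V →ₗ[R] V')
    (hf : ∀ (A : M2) (v : V), f (ρ A v) = ρ' A (f v)) (x : H1 N ρ) :
    F.opH ρ' (mapH N f hf x) = mapH N f hf (F.opH ρ x) := by
  obtain ⟨u, rfl⟩ := Submodule.Quotient.mk_surjective _ x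
  rw [mapH_mk, F.opH_mk, F.opH_mk, mapH_mk, F.opZ_mapZ]

end Funct

end Fermat.Agent.H24ES
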