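import Mathlib
import Fermat.Agent.H24ES.Coeff

/-!
# The Hecke families `T_ℓ` and `U_ℓ`, and representations of `GL₂(ℤ/f)`
-/

set_option autoImplicit false

noncomputable section

namespace Fermat.Agent.H24ES

open CongruenceSubgroup Matrix
open scoped MatrixGroups

/-! ### The monoid representation attached to a representation of `GL₂(ℤ/f)` -/

section ofGL

variable {R V : Type*} [CommRing R] [AddCommGroup V] [Module R V]

/-- reduction modulo `f` of an integral matrix -/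
def redM (f : ℕ) : M2 →+* Matrix (Fin 2) (Fin 2) (ZMod f) := (Int.castRingHom (ZMod f)).mapMatrix

lemma det_redM (f : ℕ) (A : M2) : (redM f A).det = ((A.det : ℤ) : ZMod f) := by
  have := (Int.castRingHom (ZMod f)).map_det A
  rw [eq_intCast] at this
  exact this.symm

/-- the element of `GL₂(ℤ/f)` attached to an integral matrix of unit determinant -/
def toGLf (f : ℕ) (A : M2) (h : IsUnit (redM f A).det) : GL (Fin 2) (ZMod f) :=
  Matrix.GeneralLinearGroup.mk'' (redM f A) h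

@[simp] lemma coe_toGLf (f : ℕ) (A : M2) (h : IsUnit (redM f A).det) :
    (toGLf f A h : Matrix (Fin 2) (Fin 2) (ZMod f)) = redM f A := rfl

lemma isUnit_det_mul {f : ℕ} {A B : M2} :
    IsUnit (redM f (A * B)).det ↔ IsUnit (redM f A).det ∧ IsUnit (redM f B).det := by
  rw [map_mul, Matrix.det_mul, IsUnit.mul_iff]

open Classical in
/-- The representation of the monoid of integral matrices attached to a representation of
`GL₂(ℤ/f)`: matrices with determinant not prime to `f` act by zero. -/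
def ofGL (f : ℕ) (r : GL (Fin 2) (ZMod f) →* Module.End R V) : M2 →* Module.End R V where
  toFun A := if h : IsUnit (redM f A).det then r (toGLf f A h) else 0
  map_one' := by
    have h : IsUnit (redM f (1 : M2)).det := by rw [map_one, Matrix.det_one]; exact isUnit_one
    rw [dif_pos h]
    have : toGLf f 1 h = 1 := by
      apply Units.ext; rw [coe_toGLf, map_one]; rfl
    rw [this, map_one]
  map_mul' A B := by
    by_cases hA : IsUnit (redM f A).det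
    · by_cases hB : IsUnit (redM f B).det
      · have hAB : IsUnit (redM f (A * B)).det := isUnit_det_mul.mpr ⟨hA, hB⟩
        rw [dif_pos hA, dif_pos hB, dif_pos hAB, ← map_mul]
        congr 1
        apply Units.ext
        rw [coe_toGLf, map_mul]; rfl
      · have hAB : ¬ IsUnit (redM f (A * B)).det := fun h => hB (isUnit_det_mul.mp h).2
        rw [dif_neg hB, dif_neg hAB, mul_zero]
    · have hAB : ¬ IsUnit (redM f (A * B)).det := fun h => hA (isUnit_det_mul.mp h).1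
      rw [dif_neg hA, dif_neg hAB, zero_mul]

lemma ofGL_of_isUnit {f : ℕ} (r : GL (Fin 2) (ZMod f) →* Module.End R V) {A : M2}
    (h : IsUnit (redM f A).det) : ofGL f r A = r (toGLf f A h) := dif_pos h

lemma isUnit_redM_of_det {f : ℕ} {A : M2} {ℓ : ℤ} (hA : A.det = ℓ) (hℓ : IsCoprime ℓ (f : ℤ)) :
    IsUnit (redM f A).det := by
  rw [det_redM, hA]
  obtain ⟨a, b, h⟩ := hℓ
  refine IsUnit.of_mul_eq_one ((a : ℤ) : ZMod f) ?_
  have := congrArg (Int.cast : ℤ → ZMod f) h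
  push_cast at this
  rw [CharP.cast_eq_zero, mul_zero, add_zero] at this
  rw [mul_comm]; exact this

lemma ofGL_neg_one {f : ℕ} (r : GL (Fin 2) (ZMod f) →* Module.End R V) (hr : r (-1) = 1) :
    ofGL f r (-1) = 1 := by
  have h : IsUnit (redM f (-1 : M2)).det := by
    rw [map_neg, map_one, Matrix.det_neg, Matrix.det_one, mul_one, Fintype.card_fin]
    exact isUnit_one.neg.pow 2
  rw [ofGL_of_isUnit r h, ← hr]
  congr 1
  apply Units.ext
  rw [coe_toGLf, map_neg, map_one]; rfl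

/-- matrices congruent mod `f` act in the same way -/
lemma ofGL_congr {f : ℕ} (r : GL (Fin 2) (ZMod f) →* Module.End R V) {A B : M2}
    (h : redM f A = redM f B) : ofGL f r A = ofGL f r B := by
  by_cases hA : IsUnit (redM f A).det
  · have hB : IsUnit (redM f B).det := by rw [← h]; exact hA
    rw [ofGL_of_isUnit r hA, ofGL_of_isUnit r hB]
    congr 1
    apply Units.ext
    exact h
  · have hB : ¬ IsUnit (redM f B).det := by rw [← h]; exact hA
    have e1 : ofGL f r A = 0 := dif_neg hA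
    have e2 : ofGL f r B = 0 := dif_neg hB
    rw [e1, e2]

end ofGL

/-! ### Families -/

section families

variable (N : ℕ) (ℓ : ℕ)

/-- `(1 j; 0 ℓ)` -/
def upM (j : ℤ) : M2 := !![1, j; 0, (ℓ : ℤ)]

/-- `(ℓ 0; 0 1)` -/
def diM : M2 := !![(ℓ : ℤ), 0; 0, 1]

variable {N ℓ}

@[simp] lemma det_upM (j : ℤ) : (upM ℓ j).det = ℓ := by simp [upM, Matrix.det_fin_two_of]

@[simp] lemma det_diM : (diM ℓ).det = ℓ := by simp [diM, Matrix.det_fin_two_of]

@[simp] lemma adj_upM (j : ℤ) : (upM ℓ j).adjugate = !![(ℓ : ℤ), -j; 0, 1] := by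
  rw [upM, Matrix.adjugate_fin_two_of]; simp

@[simp] lemma adj_diM : (diM ℓ).adjugate = !![1, 0; 0, (ℓ : ℤ)] := by
  rw [diM, Matrix.adjugate_fin_two_of]; simp

/-- construct an element of `Γ₀(N)` -/
def mkG (A : M2) (hA : A.det = 1) (hN : (N : ℤ) ∣ A 1 0) : Gamma0 N :=
  ⟨(⟨A, hA⟩ : SL(2, ℤ)), Gamma0_mem.mpr ((ZMod.intCast_zmod_eq_zero_iff_dvd _ _).mpr hN)⟩

@[simp] lemma gm_mkG (A : M2) (hA : A.det = 1) (hN : (N : ℤ) ∣ A 1 0) : gm (mkG A hA hN) = A := rfl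

lemma dvd_gm (γ : Gamma0 N) : (N : ℤ) ∣ gm γ 1 0 := by
  have := γ.2
  rw [Gamma0_mem] at this
  exact (ZMod.intCast_zmod_eq_zero_iff_dvd _ _).mp this

/-- If `A = γ C` with `ℓ • γ` known: solve for `γ`. -/
lemma exists_of_mul {A C : M2} (hAd : A.det = ℓ) (hℓ : (ℓ : ℤ) ≠ 0) (hCd : C.det = ℓ)
    {B : M2} (h : A * C.adjugate = (ℓ : ℤ) • B) (hN : (N : ℤ) ∣ B 1 0) :
    ∃ γ : Gamma0 N, A = gm γ * C := by
  have hB : B.det = 1 := by
    have h1 := congrArg Matrix.det h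
    rw [Matrix.det_mul, Matrix.det_adjugate, hAd, hCd, Matrix.det_smul, Fintype.card_fin] at h1
    have h2 : (ℓ : ℤ) ^ 2 * B.det = (ℓ : ℤ) ^ 2 * 1 := by rw [← h1]; simp; ring
    exact mul_left_cancel₀ (pow_ne_zero 2 hℓ) h2
  refine ⟨mkG B hB hN, ?_⟩
  rw [gm_mkG]
  have h3 : (ℓ : ℤ) • A = (ℓ : ℤ) • (B * C) := by
    calc (ℓ : ℤ) • A = A * (C.adjugate * C) := by
          rw [Matrix.adjugate_mul, hCd, Matrix.mul_smul, mul_one]
      _ = (ℓ : ℤ) • (B * C) := by rw [← mul_assoc, h, Matrix.smul_mul]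
  ext i j
  have := congrFun (congrFun h3 i) j
  simp only [Matrix.smul_apply, smul_eq_mul] at this
  exact mul_left_cancel₀ hℓ this

/-- column one is a multiple of column zero modulo `ℓ` -/
lemma exists_upM (hℓ : ℓ.Prime) {A : M2} (hA : A.det = ℓ) (hN : (N : ℤ) ∣ A 1 0)
    (hcol : ¬ ((ℓ : ℤ) ∣ A 0 0 ∧ (ℓ : ℤ) ∣ A 1 0)) :
    ∃ (j : Fin ℓ) (γ : Gamma0 N), A = gm γ * upM ℓ (j : ℕ) := by
  have hℓ0 : (ℓ : ℤ) ≠ 0 := by exact_mod_cast hℓ.ne_zero
  have hp := Nat.prime_iff_prime_int.mp hℓ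
  have hdet : A 0 0 * A 1 1 - A 0 1 * A 1 0 = ℓ := by rw [← Matrix.det_fin_two]; exact hA
  obtain ⟨j, h0, h1⟩ : ∃ j : ℤ, (ℓ : ℤ) ∣ A 0 1 - j * A 0 0 ∧ (ℓ : ℤ) ∣ A 1 1 - j * A 1 0 := by
    by_cases h00 : (ℓ : ℤ) ∣ A 0 0
    · have h10 : ¬ (ℓ : ℤ) ∣ A 1 0 := fun h => hcol ⟨h00, h⟩
      obtain ⟨a, b, hab⟩ := (Prime.coprime_iff_not_dvd hp).mpr h10
      refine ⟨b * A 1 1, ?_, ?_⟩
      · have h2 : (ℓ : ℤ) ∣ A 1 0 * (A 0 1 - b * A 1 1 * A 0 0) := by
          have e : A 1 0 * (A 0 1 - b * A 1 1 * A 0 0) =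
              (A 0 0 * A 1 1 - ℓ) - b * A 1 1 * A 0 0 * A 1 0 := by linear_combination -hdet
          rw [e]
          exact dvd_sub (dvd_sub (h00.mul_right _) dvd_rfl)
            (((h00.mul_left _)).mul_right _)
        exact (hp.dvd_or_dvd h2).resolve_left h10
      · exact ⟨a * A 1 1, by linear_combination -(A 1 1) * hab⟩
    · obtain ⟨a, b, hab⟩ := (Prime.coprime_iff_not_dvd hp).mpr h00
      refine ⟨b * A 0 1, ?_, ?_⟩
      · exact ⟨a * A 0 1, by linear_combination -(A 0 1) * hab⟩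
      · have h2 : (ℓ : ℤ) ∣ A 0 0 * (A 1 1 - b * A 0 1 * A 1 0) := by
          refine ⟨1 + a * (A 0 1 * A 1 0), ?_⟩
          linear_combination hdet - (A 0 1 * A 1 0) * hab
        exact (hp.dvd_or_dvd h2).resolve_left h00
  -- reduce `j` modulo `ℓ`
  have hjm : 0 ≤ j % ℓ ∧ j % ℓ < ℓ :=
    ⟨Int.emod_nonneg _ hℓ0, Int.emod_lt_of_pos _ (by exact_mod_cast hℓ.pos)⟩
  let j' : Fin ℓ := ⟨(j % ℓ).toNat, by
    have := hjm.2; have := hjm.1; omega⟩
  have hj' : ((j' : ℕ) : ℤ) = j % ℓ := Int.toNat_of_nonneg hjm.1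
  have hdiv : (ℓ : ℤ) ∣ j - j % ℓ := Int.dvd_self_sub_emod
  obtain ⟨x, hx⟩ : (ℓ : ℤ) ∣ A 0 1 - (j' : ℕ) * A 0 0 := by
    rw [hj', show A 0 1 - j % ℓ * A 0 0 = (A 0 1 - j * A 0 0) + (j - j % ℓ) * A 0 0 by ring]
    exact dvd_add h0 (hdiv.mul_right _)
  obtain ⟨y, hy⟩ : (ℓ : ℤ) ∣ A 1 1 - (j' : ℕ) * A 1 0 := by
    rw [hj', show A 1 1 - j % ℓ * A 1 0 = (A 1 1 - j * A 1 0) + (j - j % ℓ) * A 1 0 by ring]
    exact dvd_add h1 (hdiv.mul_right _)
  refine ⟨j', exists_of_mul (B := !![A 0 0, x; A 1 0, y]) hA hℓ0 (det_upM _) ?_ (by simpa using hN)⟩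
  rw [adj_upM]
  ext a b
  fin_cases a <;> fin_cases b
  · simp [Matrix.mul_apply, Fin.sum_univ_two]; ring
  · simp [Matrix.mul_apply, Fin.sum_univ_two]; linear_combination hx
  · simp [Matrix.mul_apply, Fin.sum_univ_two]; ring
  · simp [Matrix.mul_apply, Fin.sum_univ_two]; linear_combination hy

lemma exists_diM (hℓ : ℓ.Prime) (hℓN : ¬ ℓ ∣ N) {A : M2} (hA : A.det = ℓ) (hN : (N : ℤ) ∣ A 1 0)
    (hcol : (ℓ : ℤ) ∣ A 0 0 ∧ (ℓ : ℤ) ∣ A 1 0) :
    ∃ (γ : Gamma0 N), A = gm γ * diM ℓ := by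
  have hℓ0 : (ℓ : ℤ) ≠ 0 := by exact_mod_cast hℓ.ne_zero
  obtain ⟨⟨x, hx⟩, ⟨y, hy⟩⟩ := hcol
  refine exists_of_mul (B := !![x, A 0 1; y, A 1 1]) hA hℓ0 det_diM ?_ ?_
  · rw [adj_diM]
    ext a b
    fin_cases a <;> fin_cases b
    · simp [Matrix.mul_apply, Fin.sum_univ_two]; exact hx
    · simp [Matrix.mul_apply, Fin.sum_univ_two]; ring
    · simp [Matrix.mul_apply, Fin.sum_univ_two]; exact hy
    · simp [Matrix.mul_apply, Fin.sum_univ_two]; ring
  · show (N : ℤ) ∣ y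
    have hcop : IsCoprime (N : ℤ) (ℓ : ℤ) := by
      rw [Nat.isCoprime_iff_coprime, Nat.coprime_comm]
      exact (Nat.Prime.coprime_iff_not_dvd hℓ).mpr hℓN
    exact hcop.dvd_of_dvd_mul_left (by rw [← hy]; exact hN)

lemma upM_uniq {i j : Fin ℓ} {γ : Gamma0 N}
    (h : upM ℓ (i : ℕ) = gm γ * upM ℓ (j : ℕ)) : i = j := by
  have h00 := congrFun (congrFun h 0) 0
  have h10 := congrFun (congrFun h 1) 0
  have h01 := congrFun (congrFun h 0) 1
  have h11 := congrFun (congrFun h 1) 1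
  simp only [upM, Matrix.mul_apply, Fin.sum_univ_two, Matrix.of_apply, Matrix.cons_val',
    Matrix.cons_val_zero, Matrix.cons_val_one, Matrix.cons_val_fin_one, mul_one, mul_zero,
    add_zero] at h00 h10 h01 h11
  rw [← h00] at h01
  have e1 : ((i : ℕ) : ℤ) = j + gm γ 0 1 * ℓ := by linear_combination h01
  have hi := i.2
  have hj := j.2
  have hz : gm γ 0 1 = 0 := by
    by_contra hne
    rcases lt_or_gt_of_ne hne with h | h
    · have : gm γ 0 1 * (ℓ : ℤ) ≤ -ℓ := by nlinarith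
      omega
    · have : (ℓ : ℤ) ≤ gm γ 0 1 * (ℓ : ℤ) := by nlinarith
      omega
  rw [hz] at e1
  apply Fin.ext
  have : ((i : ℕ) : ℤ) = ((j : ℕ) : ℤ) := by linear_combination e1
  exact_mod_cast this

lemma upM_ne_diM (hℓ : ℓ.Prime) {j : ℤ} {γ : Gamma0 N} (h : upM ℓ j = gm γ * diM ℓ) : False := by
  have h00 := congrFun (congrFun h 0) 0
  simp only [upM, diM, Matrix.mul_apply, Fin.sum_univ_two, Matrix.of_apply, Matrix.cons_val',
    Matrix.cons_val_zero, Matrix.cons_val_one, Matrix.cons_val_fin_one, mul_zero,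
    add_zero] at h00
  have : (ℓ : ℤ) ∣ 1 := ⟨gm γ 0 0, by linear_combination h00⟩
  exact hℓ.one_lt.ne' (by exact_mod_cast Int.eq_one_of_dvd_one (by positivity) this)

variable (N ℓ)

/-- the representatives for `T_ℓ` -/
def tα : Option (Fin ℓ) → M2
  | none => diM ℓ
  | some j => upM ℓ (j : ℕ)

@[simp] lemma tα_none : tα ℓ none = diM ℓ := rfl
@[simp] lemma tα_some (j : Fin ℓ) : tα ℓ (some j) = upM ℓ (j : ℕ) := rfl

variable {ℓ}

lemma det_tα (i : Option (Fin ℓ)) : (tα ℓ i).det = ℓ := by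
  cases i with
  | none => exact det_diM
  | some j => exact det_upM _

variable {N}

/-- every matrix of determinant `ℓ` with lower left entry divisible by `N` is in the double
coset -/
lemma exists_tα (hℓ : ℓ.Prime) (hℓN : ¬ ℓ ∣ N) {A : M2} (hA : A.det = ℓ) (hN : (N : ℤ) ∣ A 1 0) :
    ∃ (i : Option (Fin ℓ)) (γ : Gamma0 N), A = gm γ * tα ℓ i := by
  by_cases hcol : (ℓ : ℤ) ∣ A 0 0 ∧ (ℓ : ℤ) ∣ A 1 0
  · obtain ⟨γ, hγ⟩ := exists_diM hℓ hℓN hA hN hcol
    exact ⟨none, γ, hγ⟩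
  · obtain ⟨j, γ, hγ⟩ := exists_upM hℓ hA hN hcol
    exact ⟨some j, γ, hγ⟩

lemma tα_uniq (hℓ : ℓ.Prime) (i j : Option (Fin ℓ)) (γ : Gamma0 N)
    (h : tα ℓ i = gm γ * tα ℓ j) : i = j := by
  cases i with
  | none =>
    cases j with
    | none => rfl
    | some j =>
      exfalso
      have h' : upM ℓ (j : ℕ) = gm γ⁻¹ * diM ℓ := by
        rw [tα_none, tα_some] at h
        rw [h, ← mul_assoc, gm_inv, adj_mul_gm, one_mul]
      exact upM_ne_diM hℓ h'
  | some i =>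
    cases j with
    | none => exact (upM_ne_diM hℓ h).elim
    | some j => rw [upM_uniq h]

lemma tα_mul_spec (γ : Gamma0 N) (i : Option (Fin ℓ)) :
    (tα ℓ i * gm γ).det = ℓ ∧ (N : ℤ) ∣ (tα ℓ i * gm γ) 1 0 := by
  refine ⟨by rw [Matrix.det_mul, det_tα, det_gm, mul_one], ?_⟩
  cases i with
  | none =>
    have : (tα ℓ none * gm γ) 1 0 = gm γ 1 0 := by
      simp [diM, Matrix.mul_apply, Fin.sum_univ_two]
    rw [this]; exact dvd_gm γ
  | some j =>
    have : (tα ℓ (some j) * gm γ) 1 0 = ℓ * gm γ 1 0 := by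
      simp [upM, Matrix.mul_apply, Fin.sum_univ_two]
    rw [this]; exact (dvd_gm γ).mul_left _

variable (N ℓ)

/-- **The Hecke family `T_ℓ`**, `ℓ ∤ N`. -/
def TF (hℓ : ℓ.Prime) (hℓN : ¬ ℓ ∣ N) : HFam N (Option (Fin ℓ)) :=
  HFam.mk' (tα ℓ) (fun i => by rw [det_tα]; exact_mod_cast hℓ.pos)
    (fun γ i => exists_tα hℓ hℓN (tα_mul_spec γ i).1 (tα_mul_spec γ i).2)
    (tα_uniq hℓ)

@[simp] lemma TF_α (hℓ : ℓ.Prime) (hℓN : ¬ ℓ ∣ N) : (TF N ℓ hℓ hℓN).α = tα ℓ := rfl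

/-- **The Hecke family `U_ℓ`**, `ℓ ∣ N`. -/
def UF (hℓ : ℓ.Prime) (hℓN : ℓ ∣ N) : HFam N (Fin ℓ) :=
  HFam.mk' (fun j => upM ℓ (j : ℕ)) (fun i => by rw [det_upM]; exact_mod_cast hℓ.pos)
    (fun γ i => exists_upM hℓ (by rw [Matrix.det_mul, det_upM, det_gm, mul_one])
      (by
        have : (upM ℓ (i : ℕ) * gm γ) 1 0 = ℓ * gm γ 1 0 := by
          simp [upM, Matrix.mul_apply, Fin.sum_univ_two]
        rw [this]; exact (dvd_gm γ).mul_left _)
      (by
        rintro ⟨h, -⟩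
        have e : (upM ℓ (i : ℕ) * gm γ) 0 0 = gm γ 0 0 + (i : ℕ) * gm γ 1 0 := by
          simp [upM, Matrix.mul_apply, Fin.sum_univ_two]
        rw [e] at h
        have h10 : (ℓ : ℤ) ∣ gm γ 1 0 := (by exact_mod_cast hℓN : (ℓ : ℤ) ∣ N).trans (dvd_gm γ)
        have h00 : (ℓ : ℤ) ∣ gm γ 0 0 := by
          have := dvd_sub h (h10.mul_left ((i : ℕ) : ℤ))
          simpa using this
        have hd := det_gm γ
        rw [Matrix.det_fin_two] at hd
        have : (ℓ : ℤ) ∣ 1 := by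
          rw [← hd]
          exact dvd_sub (h00.mul_right _) (h10.mul_left _)
        exact hℓ.one_lt.ne' (by exact_mod_cast Int.eq_one_of_dvd_one (by positivity) this)))
    (fun _ _ _ h => upM_uniq h)

@[simp] lemma UF_α (hℓ : ℓ.Prime) (hℓN : ℓ ∣ N) : (UF N ℓ hℓ hℓN).α = fun j : Fin ℓ => upM ℓ ((j : ℕ) : ℤ) :=
  rfl

end families

end Fermat.Agent.H24ES
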