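import Mathlib
import Fermat.Agent.H24ES.Hecke
import Fermat.Agent.H16.CuspPeriod

/-!
# Vector valued cusp forms on `Γ₀(N)`
-/

set_option autoImplicit false

noncomputable section

namespace Fermat.Agent.H24ES

open UpperHalfPlane hiding I
open CongruenceSubgroup Matrix ModularForm Filter Function
open Fermat.Agent.H16
open scoped MatrixGroups Manifold Topology

/-! ### Integral matrices as elements of `GL₂(ℝ)` -/

/-- real matrix attached to an integral matrix -/
def realM (A : M2) : Matrix (Fin 2) (Fin 2) ℝ := A.map (Int.cast : ℤ → ℝ)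

lemma det_realM (A : M2) : (realM A).det = ((A.det : ℤ) : ℝ) := (Int.cast_det A).symm

open Classical in
/-- the element of `GL₂(ℝ)` attached to an integral matrix of non-zero determinant -/
def iGL (A : M2) : GL (Fin 2) ℝ :=
  if h : (realM A).det ≠ 0 then Matrix.GeneralLinearGroup.mkOfDetNeZero (realM A) h else 1

lemma coe_iGL {A : M2} (hA : 0 < A.det) : (iGL A : Matrix (Fin 2) (Fin 2) ℝ) = realM A := by
  have h : (realM A).det ≠ 0 := by rw [det_realM]; exact_mod_cast hA.ne'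
  rw [iGL, dif_pos h]
  rfl

lemma det_iGL {A : M2} (hA : 0 < A.det) : (iGL A).det.val = ((A.det : ℤ) : ℝ) := by
  rw [Matrix.GeneralLinearGroup.val_det_apply, coe_iGL hA, det_realM]

lemma det_iGL_pos {A : M2} (hA : 0 < A.det) : 0 < (iGL A).det.val := by
  rw [det_iGL hA]; exact_mod_cast hA

lemma iGL_mul {A B : M2} (hA : 0 < A.det) (hB : 0 < B.det) : iGL (A * B) = iGL A * iGL B := by
  have hAB : 0 < (A * B).det := by rw [Matrix.det_mul]; exact mul_pos hA hB
  apply Units.ext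
  rw [Units.val_mul, coe_iGL hA, coe_iGL hB, coe_iGL hAB]
  ext i j
  simp [realM, Matrix.mul_apply, Matrix.map_apply]

lemma iGL_mem {A : M2} (hA : 0 < A.det) : iGL A ∈ intMat := ⟨det_iGL_pos hA, A, coe_iGL hA⟩

lemma iGL_SL (g : SL(2, ℤ)) : iGL (g : M2) = Matrix.SpecialLinearGroup.mapGL ℝ g := by
  apply Units.ext
  rw [coe_iGL (by rw [g.2]; norm_num)]
  ext i j
  simp [realM]

lemma det_gm_pos {N : ℕ} (γ : Gamma0 N) : 0 < (gm γ).det := by rw [det_gm]; norm_num

lemma iGL_gm {N : ℕ} (γ : Gamma0 N) :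
    iGL (gm γ) = Matrix.SpecialLinearGroup.mapGL ℝ (γ : SL(2, ℤ)) := iGL_SL _

/-! ### Cuspidal functions -/

lemma _root_.Fermat.Agent.H16.Cuspidal.add {f g : ℍ → ℂ} (hf : Cuspidal f) (hg : Cuspidal g) :
    Cuspidal (f + g) where
  holo := hf.holo.add hg.holo
  per := by
    obtain ⟨n, hn, h1⟩ := hf.per
    obtain ⟨m, hm, h2⟩ := hg.per
    refine ⟨n * m, Nat.mul_pos hn hm, ?_⟩
    have e1 : Periodic (f ∘ ofComplex) (((n * m : ℕ) : ℝ) : ℂ) := by
      have e : (((n * m : ℕ) : ℝ) : ℂ) = (m : ℂ) * ((n : ℝ) : ℂ) := by push_cast; ring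
      rw [e]; exact h1.nat_mul m
    have e2 : Periodic (g ∘ ofComplex) (((n * m : ℕ) : ℝ) : ℂ) := by
      have e : (((n * m : ℕ) : ℝ) : ℂ) = (n : ℂ) * ((m : ℝ) : ℂ) := by push_cast; ring
      rw [e]; exact h2.nat_mul n
    exact e1.add e2
  zero := by
    have h1 := hf.zero
    have h2 := hg.zero
    rw [IsZeroAtImInfty, ZeroAtFilter] at *
    have h3 := h1.add h2
    rw [add_zero] at h3
    exact h3

lemma _root_.Fermat.Agent.H16.Cuspidal.smul {f : ℍ → ℂ} (c : ℂ) (hf : Cuspidal f) :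
    Cuspidal (c • f) where
  holo := hf.holo.const_smul c
  per := by
    obtain ⟨n, hn, h1⟩ := hf.per
    refine ⟨n, hn, ?_⟩
    intro w
    have := h1 w
    simp only [Function.comp_apply, Pi.smul_apply] at this ⊢
    rw [this]
  zero := by
    have h1 := hf.zero
    rw [IsZeroAtImInfty, ZeroAtFilter] at *
    have h3 := h1.const_smul c
    rw [smul_zero] at h3
    exact h3

lemma _root_.Fermat.Agent.H16.Cuspidal.zero' : Cuspidal (0 : ℍ → ℂ) where
  holo := mdifferentiable_const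
  per := ⟨1, one_pos, fun _ => rfl⟩
  zero := tendsto_const_nhds

lemma _root_.Fermat.Agent.H16.Cuspidal.sum {ι : Type*} (s : Finset ι) {f : ι → ℍ → ℂ}
    (h : ∀ i ∈ s, Cuspidal (f i)) : Cuspidal (∑ i ∈ s, f i) := by
  classical
  induction s using Finset.induction_on with
  | empty => simpa using Cuspidal.zero'
  | insert a s ha ih =>
    rw [Finset.sum_insert ha]
    exact (h a (Finset.mem_insert_self _ _)).add (ih fun i hi => h i (Finset.mem_insert_of_mem hi))

/-- the action of an upper triangular integral matrix preserves cuspidality -/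
lemma cuspidal_slash_upper {f : ℍ → ℂ} (hf : Cuspidal f) (k : ℤ) {B : M2} (hB : 0 < B.det)
    (h10 : B 1 0 = 0) : Cuspidal (f ∣[k] iGL B) where
  holo := MDifferentiable.slash hf.holo k _
  zero := by
    refine IsZeroAtImInfty.slash k ?_ hf.zero
    have : (iGL B : Matrix (Fin 2) (Fin 2) ℝ) 1 0 = 0 := by
      rw [coe_iGL hB]; simp [realM, h10]
    exact this
  per := by
    obtain ⟨n, hn, h1⟩ := hf.per
    have hdet : B 0 0 * B 1 1 = B.det := by rw [Matrix.det_fin_two, h10, mul_zero, sub_zero]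
    have hd : B 1 1 ≠ 0 := fun h => by rw [h, mul_zero] at hdet; omega
    have hprod : 0 < B 0 0 * B 1 1 := by rw [hdet]; exact hB
    -- the period `n |d|`
    refine ⟨n * (B 1 1).natAbs, Nat.mul_pos hn (Int.natAbs_pos.mpr hd), ?_⟩
    set h : ℝ := ((n * (B 1 1).natAbs : ℕ) : ℝ) with hh
    have hh' : h = n * |(B 1 1 : ℝ)| := by rw [hh]; push_cast; simp
    have hT : iGL B * transMat h = transMat (n * |(B 0 0 : ℝ)|) * iGL B := by
      apply Units.ext
      rw [Units.val_mul, Units.val_mul, coe_iGL hB]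
      have hs : (B 0 0 : ℝ) * |(B 1 1 : ℝ)| = |(B 0 0 : ℝ)| * (B 1 1 : ℝ) := by
        rcases lt_or_gt_of_ne hd with hneg | hpos
        · have h0 : B 0 0 < 0 := by nlinarith
          rw [abs_of_neg (by exact_mod_cast hneg), abs_of_neg (by exact_mod_cast h0)]; ring
        · have h0 : 0 < B 0 0 := by nlinarith
          rw [abs_of_pos (by exact_mod_cast hpos), abs_of_pos (by exact_mod_cast h0)]
      ext i j
      fin_cases i <;> fin_cases j
      · simp [transMat, Matrix.GeneralLinearGroup.mkOfDetNeZero, Matrix.mul_apply,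
          Fin.sum_univ_two, realM, h10]
      · simp [transMat, Matrix.GeneralLinearGroup.mkOfDetNeZero, Matrix.mul_apply,
          Fin.sum_univ_two, realM, hh']
        linear_combination (n : ℝ) * hs
      · simp [transMat, Matrix.GeneralLinearGroup.mkOfDetNeZero, Matrix.mul_apply,
          Fin.sum_univ_two, realM, h10]
      · simp [transMat, Matrix.GeneralLinearGroup.mkOfDetNeZero, Matrix.mul_apply,
          Fin.sum_univ_two, realM, h10]
    have hper : f ∣[k] transMat (n * |(B 0 0 : ℝ)|) = f := by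
      funext τ
      rw [slash_transMat]
      have h2 : Periodic (f ∘ ofComplex) ((((B 0 0).natAbs : ℕ) : ℂ) * ((n : ℝ) : ℂ)) :=
        h1.nat_mul _
      have h3 := h2 (τ : ℂ)
      simp only [Function.comp_apply, ofComplex_apply] at h3
      rw [← h3]
      congr 1
      apply UpperHalfPlane.ext
      have hpos : 0 < ((τ : ℂ) + (((B 0 0).natAbs : ℕ) : ℂ) * ((n : ℝ) : ℂ)).im := by
        simpa using τ.im_pos
      rw [transMat_smul, ofComplex_apply_of_im_pos hpos]
      have e : (((B 0 0).natAbs : ℕ) : ℝ) = |(B 0 0 : ℝ)| := by simp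
      have e' : (((B 0 0).natAbs : ℕ) : ℂ) = ((|(B 0 0 : ℝ)| : ℝ) : ℂ) := by
        rw [← e]; push_cast; rfl
      show (τ : ℂ) + _ = (τ : ℂ) + _
      rw [e']; push_cast; ring
    have hinv : (f ∣[k] iGL B) ∣[k] transMat h = f ∣[k] iGL B := by
      rw [← SlashAction.slash_mul, hT, SlashAction.slash_mul, hper]
    apply periodic_comp_ofComplex_of
    intro τ hw
    have h3 := congrFun hinv τ
    rw [slash_transMat] at h3
    rw [← h3]
    refine congrArg (f ∣[k] iGL B) (UpperHalfPlane.ext ?_)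
    rw [transMat_smul]

/-- decomposition of an integral matrix as unimodular times upper triangular -/
lemma exists_upper (A : M2) (hA : 0 < A.det) :
    ∃ (g : SL(2, ℤ)) (B : M2), A = (g : M2) * B ∧ 0 < B.det ∧ B 1 0 = 0 := by
  have hne : A 0 0 ≠ 0 ∨ A 1 0 ≠ 0 := by
    by_contra h
    push Not at h
    rw [Matrix.det_fin_two, h.1, h.2] at hA
    simp at hA
  obtain ⟨x, y, d, hd, hx, hy, hcop⟩ : ∃ x y d : ℤ, d ≠ 0 ∧ A 0 0 = d * x ∧ A 1 0 = d * y ∧
      IsCoprime x y := by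
    have hg : (Int.gcd (A 0 0) (A 1 0) : ℤ) ≠ 0 := by
      rw [Ne, Int.natCast_eq_zero, Int.gcd_eq_zero_iff]
      tauto
    obtain ⟨x, hx⟩ := Int.gcd_dvd_left (a := A 0 0) (b := A 1 0)
    obtain ⟨y, hy⟩ := Int.gcd_dvd_right (a := A 0 0) (b := A 1 0)
    refine ⟨x, y, _, hg, hx, hy, ?_⟩
    have h1 := Int.gcd_eq_gcd_ab (A 0 0) (A 1 0)
    refine ⟨Int.gcdA (A 0 0) (A 1 0), Int.gcdB (A 0 0) (A 1 0), ?_⟩
    apply mul_left_cancel₀ hg
    calc (Int.gcd (A 0 0) (A 1 0) : ℤ) * (Int.gcdA (A 0 0) (A 1 0) * x +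
          Int.gcdB (A 0 0) (A 1 0) * y)
        = (Int.gcd (A 0 0) (A 1 0) * x) * Int.gcdA (A 0 0) (A 1 0) +
          (Int.gcd (A 0 0) (A 1 0) * y) * Int.gcdB (A 0 0) (A 1 0) := by ring
      _ = A 0 0 * Int.gcdA (A 0 0) (A 1 0) + A 1 0 * Int.gcdB (A 0 0) (A 1 0) := by
          rw [← hx, ← hy]
      _ = _ := by rw [← h1, mul_one]
  obtain ⟨a, b, hab⟩ := hcop
  let g : SL(2, ℤ) := ⟨!![x, -b; y, a], by rw [Matrix.det_fin_two_of]; linear_combination hab⟩
  let B : M2 := !![a, b; -y, x] * A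
  have hgB : A = (g : M2) * B := by
    show A = !![x, -b; y, a] * (!![a, b; -y, x] * A)
    rw [← mul_assoc]
    have : (!![x, -b; y, a] * !![a, b; -y, x] : M2) = 1 := by
      ext i j
      fin_cases i <;> fin_cases j
      · simp [Matrix.mul_apply, Fin.sum_univ_two]; linear_combination hab
      · simp [Matrix.mul_apply, Fin.sum_univ_two]; ring
      · simp [Matrix.mul_apply, Fin.sum_univ_two]; ring
      · simp [Matrix.mul_apply, Fin.sum_univ_two]; linear_combination hab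
    rw [this, one_mul]
  refine ⟨g, B, hgB, ?_, ?_⟩
  · have := congrArg Matrix.det hgB
    rw [Matrix.det_mul, g.2, one_mul] at this
    rw [← this]; exact hA
  · show (!![a, b; -y, x] * A : M2) 1 0 = 0
    simp [Matrix.mul_apply, Fin.sum_univ_two]
    rw [hx, hy]; ring

/-- Functions all of whose translates under `SL₂(ℤ)` are cuspidal. -/
def CuspV (k : ℤ) (h : ℍ → ℂ) : Prop :=
  ∀ g : SL(2, ℤ), Cuspidal (h ∣[k] (Matrix.SpecialLinearGroup.mapGL ℝ g : GL (Fin 2) ℝ))

namespace CuspV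

variable {k : ℤ} {h h' : ℍ → ℂ}

lemma slash (hh : CuspV k h) {A : M2} (hA : 0 < A.det) : Cuspidal (h ∣[k] iGL A) := by
  obtain ⟨g, B, hgB, hB, h10⟩ := exists_upper A hA
  rw [hgB, iGL_mul (by rw [g.2]; norm_num) hB, iGL_SL, SlashAction.slash_mul]
  exact cuspidal_slash_upper (hh g) k hB h10

lemma cuspidal (hh : CuspV k h) : Cuspidal h := by
  have := hh 1
  rwa [map_one, SlashAction.slash_one] at this

lemma add (hh : CuspV k h) (hh' : CuspV k h') : CuspV k (h + h') := by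
  intro g
  rw [SlashAction.add_slash]
  exact (hh g).add (hh' g)

lemma sigma_mapGL (g : SL(2, ℤ)) (c : ℂ) :
    UpperHalfPlane.σ (Matrix.SpecialLinearGroup.mapGL ℝ g : GL (Fin 2) ℝ) c = c := by
  rw [UpperHalfPlane.σ, if_pos (by simp)]; rfl

lemma smul (c : ℂ) (hh : CuspV k h) : CuspV k (c • h) := by
  intro g
  rw [ModularForm.smul_slash, sigma_mapGL]
  exact (hh g).smul c

lemma zero : CuspV k (0 : ℍ → ℂ) := by
  intro g
  rw [SlashAction.zero_slash]
  exact Cuspidal.zero'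

lemma sum {ι : Type*} (s : Finset ι) {f : ι → ℍ → ℂ} (h : ∀ i ∈ s, CuspV k (f i)) :
    CuspV k (∑ i ∈ s, f i) := by
  classical
  induction s using Finset.induction_on with
  | empty => simpa using zero
  | insert a s ha ih =>
    rw [Finset.sum_insert ha]
    exact (h a (Finset.mem_insert_self _ _)).add (ih fun i hi => h i (Finset.mem_insert_of_mem hi))

/-- stability under translation by integral matrices -/
lemma comp_iGL (hh : CuspV k h) {A : M2} (hA : 0 < A.det) : CuspV k (h ∣[k] iGL A) := by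
  intro g
  have hg : 0 < (g : M2).det := by rw [g.2]; norm_num
  rw [← iGL_SL, ← SlashAction.slash_mul, ← iGL_mul hA hg]
  exact hh.slash (by rw [Matrix.det_mul]; exact mul_pos hA hg)

end CuspV

/-! ### Vector valued functions -/

section vslash

variable {W W' : Type*} [AddCommGroup W] [Module ℂ W] [AddCommGroup W'] [Module ℂ W']

/-- the slash action on vector valued functions -/
def vslash (k : ℤ) (A : M2) (F : ℍ → W) (z : ℍ) : W :=
  ((((|(iGL A).det.val| : ℝ) : ℂ)) ^ (k - 1) * denom (iGL A) z ^ (-k)) • F (iGL A • z)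

lemma dual_vslash (k : ℤ) {A : M2} (hA : 0 < A.det) (F : ℍ → W) (φ : W →ₗ[ℂ] ℂ) (z : ℍ) :
    φ (vslash k A F z) = ((fun w => φ (F w)) ∣[k] iGL A) z := by
  rw [ModularForm.slash_apply, vslash, map_smul, smul_eq_mul]
  have hσ (x) : UpperHalfPlane.σ (iGL A) x = x := by
    rw [UpperHalfPlane.σ, if_pos (det_iGL_pos hA)]; rfl
  rw [hσ]; ring

lemma vec_ext {v w : W} (h : ∀ φ : W →ₗ[ℂ] ℂ, φ v = φ w) : v = w := by
  rw [← sub_eq_zero, ← Module.forall_dual_apply_eq_zero_iff ℂ]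
  intro φ
  rw [map_sub, h φ, sub_self]

lemma vslash_comp (k : ℤ) (A : M2) (F : ℍ → W) (f : W →ₗ[ℂ] W') (z : ℍ) :
    vslash k A (fun w => f (F w)) z = f (vslash k A F z) := by
  rw [vslash, vslash, map_smul]

lemma vslash_mul (k : ℤ) {A B : M2} (hA : 0 < A.det) (hB : 0 < B.det) (F : ℍ → W) :
    vslash k (A * B) F = vslash k B (vslash k A F) := by
  funext z
  apply vec_ext
  intro φ
  have hAB : 0 < (A * B).det := by rw [Matrix.det_mul]; exact mul_pos hA hB
  have e : (fun w => φ (vslash k A F w)) = (fun w => φ (F w)) ∣[k] iGL A := by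
    funext w; rw [dual_vslash k hA]
  rw [dual_vslash k hAB, dual_vslash k hB, iGL_mul hA hB, SlashAction.slash_mul, e]

lemma vslash_sum {ι : Type*} (k : ℤ) (A : M2) (s : Finset ι) (F : ι → ℍ → W) (z : ℍ) :
    vslash k A (fun w => ∑ i ∈ s, F i w) z = ∑ i ∈ s, vslash k A (F i) z := by
  simp only [vslash, Finset.smul_sum]

lemma vslash_add (k : ℤ) (A : M2) (F G : ℍ → W) (z : ℍ) :
    vslash k A (F + G) z = vslash k A F z + vslash k A G z := by
  simp only [vslash, Pi.add_apply, smul_add]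

lemma vslash_smul (k : ℤ) (A : M2) (c : ℂ) (F : ℍ → W) (z : ℍ) :
    vslash k A (c • F) z = c • vslash k A F z := by
  simp only [vslash, Pi.smul_apply]
  rw [smul_comm]

/-- explicit formula for elements of `SL₂(ℤ)` -/
lemma vslash_SL (k : ℤ) (g : SL(2, ℤ)) (F : ℍ → W) (z : ℍ) :
    vslash k (g : M2) F z = (((g 1 0 : ℤ) : ℂ) * z + ((g 1 1 : ℤ) : ℂ)) ^ (-k) • F (g • z) := by
  rw [vslash, iGL_SL]
  have h1 : (Matrix.SpecialLinearGroup.mapGL ℝ g : GL (Fin 2) ℝ).det.val = 1 := by simp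
  rw [h1]
  have h2 : denom (Matrix.SpecialLinearGroup.mapGL ℝ g : GL (Fin 2) ℝ) z =
      ((g 1 0 : ℤ) : ℂ) * z + ((g 1 1 : ℤ) : ℂ) := by
    simp [denom]
  rw [h2]
  simp
  rfl

end vslash

/-! ### Vector valued forms -/

section forms

variable {W : Type*} [AddCommGroup W] [Module ℂ W] (N : ℕ) (ρ : M2 →* Module.End ℂ W) (k : ℤ)

/-- Vector valued cusp forms of weight `k` for `Γ₀(N)`, of type `ρ`. -/
def vForms : Submodule ℂ (ℍ → W) where
  carrier := {F | (∀ (γ : Gamma0 N) (z : ℍ), vslash k (gm γ) F z = ρ (gm γ) (F z)) ∧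
    ∀ φ : W →ₗ[ℂ] ℂ, CuspV k (fun z => φ (F z))}
  add_mem' := by
    rintro F G ⟨h1, h2⟩ ⟨h3, h4⟩
    refine ⟨fun γ z => ?_, fun φ => ?_⟩
    · rw [vslash_add, h1, h3, Pi.add_apply, map_add]
    · have := (h2 φ).add (h4 φ)
      have e : (fun z => φ ((F + G) z)) = (fun z => φ (F z)) + fun z => φ (G z) := by
        funext z; simp
      rw [e]; exact this
  zero_mem' := by
    refine ⟨fun γ z => by simp [vslash], fun φ => ?_⟩
    have e : (fun z => φ ((0 : ℍ → W) z)) = 0 := by funext z; simp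
    rw [e]; exact CuspV.zero
  smul_mem' := by
    rintro c F ⟨h1, h2⟩
    refine ⟨fun γ z => ?_, fun φ => ?_⟩
    · rw [vslash_smul, h1, Pi.smul_apply, map_smul]
    · have e : (fun z => φ ((c • F) z)) = c • (fun z => φ (F z)) := by funext z; simp
      rw [e]; exact (h2 φ).smul c

variable {N ρ k}

lemma mem_vForms {F : ℍ → W} : F ∈ vForms N ρ k ↔
    (∀ (γ : Gamma0 N) (z : ℍ), vslash k (gm γ) F z = ρ (gm γ) (F z)) ∧
    ∀ φ : W →ₗ[ℂ] ℂ, CuspV k (fun z => φ (F z)) := Iff.rfl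

/-- membership with the explicit automorphy factor -/
lemma mem_vForms_iff {F : ℍ → W} : F ∈ vForms N ρ k ↔
    (∀ (γ : Gamma0 N) (z : ℍ), F ((γ : SL(2, ℤ)) • z) =
      ((gm γ 1 0 : ℂ) * z + (gm γ 1 1 : ℂ)) ^ k • ρ (gm γ) (F z)) ∧
    ∀ φ : W →ₗ[ℂ] ℂ, CuspV k (fun z => φ (F z)) := by
  rw [mem_vForms]
  refine and_congr (forall_congr' fun γ => forall_congr' fun z => ?_) Iff.rfl
  have h := vslash_SL k (γ : SL(2, ℤ)) F z
  have hne : ((gm γ 1 0 : ℂ) * z + (gm γ 1 1 : ℂ)) ≠ 0 := by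
    have h2 : denom (Matrix.SpecialLinearGroup.mapGL ℝ (γ : SL(2, ℤ)) : GL (Fin 2) ℝ) z =
      (gm γ 1 0 : ℂ) * z + (gm γ 1 1 : ℂ) := by
      simp [denom, gm]
    rw [← h2]; exact denom_ne_zero _ _
  have hne' := zpow_ne_zero k hne
  rw [show vslash k (gm γ) F z = vslash k ((γ : SL(2, ℤ)) : M2) F z from rfl, h]
  have e : (((γ : SL(2, ℤ)) 1 0 : ℤ) : ℂ) * z + (((γ : SL(2, ℤ)) 1 1 : ℤ) : ℂ) =
      (gm γ 1 0 : ℂ) * z + (gm γ 1 1 : ℂ) := rfl
  rw [e, _root_.zpow_neg]
  constructor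
  · intro h1
    rw [← h1, smul_smul, mul_inv_cancel₀ hne', one_smul]
  · intro h1
    rw [h1, smul_smul, inv_mul_cancel₀ hne', one_smul]

/-- the Hecke operator on vector valued functions -/
def _root_.Fermat.Agent.H24ES.HFam.fun {ι : Type*} [Fintype ι] (T : HFam N ι) (ρ : M2 →* Module.End ℂ W)
    (k : ℤ) (F : ℍ → W) (z : ℍ) : W := ∑ i, ρ (T.α i).adjugate (vslash k (T.α i) F z)

variable {ι : Type*} [Fintype ι] (T : HFam N ι)

theorem fun_mem {F : ℍ → W} (hF : F ∈ vForms N ρ k) : T.fun ρ k F ∈ vForms N ρ k := by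
  refine ⟨fun γ z => ?_, fun φ => ?_⟩
  · show vslash k (gm γ) (fun w => ∑ i, ρ (T.α i).adjugate (vslash k (T.α i) F w)) z = _
    rw [vslash_sum]
    show _ = ρ (gm γ) (∑ i, ρ (T.α i).adjugate (vslash k (T.α i) F z))
    rw [map_sum, ← Equiv.sum_comp (T.perm γ)
      (fun i => ρ (gm γ) (ρ (T.α i).adjugate (vslash k (T.α i) F z)))]
    refine Finset.sum_congr rfl fun i _ => ?_
    rw [vslash_comp, ← vslash_mul k (T.det_pos i) (det_gm_pos γ), T.spec,
      vslash_mul k (det_gm_pos _) (T.det_pos _)]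
    have e : vslash k (gm (T.τ γ i)) F = fun w => ρ (gm (T.τ γ i)) (F w) := by
      funext w; exact hF.1 _ _
    rw [e, vslash_comp, rho_adj_tau, T.perm_apply]
  · have e : (fun z => φ (T.fun ρ k F z)) =
        ∑ i, ((fun z => (φ ∘ₗ ρ (T.α i).adjugate) (F z)) ∣[k] iGL (T.α i)) := by
      funext z
      rw [Finset.sum_apply]
      show φ (∑ i, ρ (T.α i).adjugate (vslash k (T.α i) F z)) = _
      rw [map_sum]
      refine Finset.sum_congr rfl fun i _ => ?_
      rw [← dual_vslash k (T.det_pos i)]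
      rfl
    rw [e]
    exact CuspV.sum _ fun i _ => (hF.2 _).comp_iGL (T.det_pos i)

/-- the Hecke operator on vector valued forms -/
def _root_.Fermat.Agent.H24ES.HFam.opF (ρ : M2 →* Module.End ℂ W) (k : ℤ) :
    vForms N ρ k →ₗ[ℂ] vForms N ρ k where
  toFun F := ⟨T.fun ρ k F.1, fun_mem T F.2⟩
  map_add' F G := by
    apply Subtype.ext
    funext z
    show ∑ i, ρ (T.α i).adjugate (vslash k (T.α i) (F.1 + G.1) z) =
      ∑ i, ρ (T.α i).adjugate (vslash k (T.α i) F.1 z) +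
      ∑ i, ρ (T.α i).adjugate (vslash k (T.α i) G.1 z)
    rw [← Finset.sum_add_distrib]
    refine Finset.sum_congr rfl fun i _ => ?_
    rw [← map_add, ← vslash_add]
  map_smul' c F := by
    apply Subtype.ext
    funext z
    show ∑ i, ρ (T.α i).adjugate (vslash k (T.α i) (c • F.1) z) =
      c • ∑ i, ρ (T.α i).adjugate (vslash k (T.α i) F.1 z)
    rw [Finset.smul_sum]
    refine Finset.sum_congr rfl fun i _ => ?_
    rw [← map_smul, ← vslash_smul]

lemma coe_opF (F : vForms N ρ k) (z : ℍ) :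
    (T.opF ρ k F : ℍ → W) z = ∑ i, ρ (T.α i).adjugate (vslash k (T.α i) F.1 z) := rfl

end forms

end Fermat.Agent.H24ES
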