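import Mathlib
import Fermat.Agent.H24ES.VForm
import Fermat.Agent.ES.MaxPrinciple

/-!
# The period cocycle of a vector valued cusp form of weight two
-/

set_option autoImplicit false

noncomputable section

namespace Fermat.Agent.H24ES

open UpperHalfPlane hiding I
open CongruenceSubgroup Matrix ModularForm Filter Function
open Fermat.Agent.H16 Fermat.Agent.ES
open scoped MatrixGroups Manifold Topology

/-! ### Scalar primitives -/

section scalar

lemma CuspV.isPrim {h : ℍ → ℂ} (hh : CuspV 2 h) : IsPrim h (prim h) := hh.cuspidal.hasPrim.isPrim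

lemma CuspV.prim_deriv {h : ℍ → ℂ} (hh : CuspV 2 h) (τ : ℍ) :
    HasDerivAt (prim h ∘ ofComplex) (h τ) τ := hh.isPrim.deriv τ

/-- primitives of translates differ by a constant -/
lemma CuspV.prim_smul_sub {h : ℍ → ℂ} (hh : CuspV 2 h) {A : M2} (hA : 0 < A.det) (z w : ℍ) :
    prim h (iGL A • z) - prim (h ∣[(2 : ℤ)] iGL A) z =
      prim h (iGL A • w) - prim (h ∣[(2 : ℤ)] iGL A) w :=
  exists_const_of_deriv_eq (hasDerivAt_comp_smul hh.prim_deriv (det_iGL_pos hA))
    (hh.slash hA).hasPrim.isPrim.deriv z w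

lemma CuspV.good_prim {h : ℍ → ℂ} (hh : CuspV 2 h) : Good (prim h) where
  holo := hh.cuspidal.prim.holo
  per δ := by
    have hδ : 0 < (δ : M2).det := by rw [δ.2]; norm_num
    obtain ⟨n, hn, hper⟩ := (hh.slash hδ).prim.per
    refine ⟨n, hn, fun z => ?_⟩
    have e1 := hh.prim_smul_sub hδ z (ModularGroup.T ^ n • z)
    have e3 : prim (h ∣[(2 : ℤ)] iGL (δ : M2)) (ModularGroup.T ^ n • z) =
        prim (h ∣[(2 : ℤ)] iGL (δ : M2)) z := by
      have h1 := hper (z : ℂ)
      simp only [Function.comp_apply, ofComplex_apply] at h1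
      rw [← h1]
      congr 1
      apply UpperHalfPlane.ext
      rw [T_pow_smul_coe, ofComplex_apply_of_im_pos (by simpa using z.im_pos)]
      simp
    rw [e3, iGL_SL] at e1
    show prim h (Matrix.SpecialLinearGroup.mapGL ℝ δ • ModularGroup.T ^ n • z) =
      prim h (Matrix.SpecialLinearGroup.mapGL ℝ δ • z)
    linear_combination -e1
  bdd δ := by
    have hδ : 0 < (δ : M2).det := by rw [δ.2]; norm_num
    have h1 : (fun w : ℍ ↦ prim h (δ • w)) =
        fun w : ℍ ↦ prim (h ∣[(2 : ℤ)] iGL (δ : M2)) w +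
          (prim h (iGL (δ : M2) • UpperHalfPlane.I) -
            prim (h ∣[(2 : ℤ)] iGL (δ : M2)) UpperHalfPlane.I) := by
      funext w
      have := hh.prim_smul_sub hδ w UpperHalfPlane.I
      rw [← this, iGL_SL]
      change prim h (Matrix.SpecialLinearGroup.mapGL ℝ δ • w) = _
      ring
    rw [h1]
    have h2 : IsBoundedAtImInfty (prim (h ∣[(2 : ℤ)] iGL (δ : M2))) :=
      (hh.slash hδ).prim.zero.isBoundedAtImInfty
    exact h2.add (Filter.const_boundedAtFilter _ _)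

/-- If `prim h + e • (prim h') ∘ J` is invariant under a finite index subgroup and `e = ± 1` then
`h = 0`. -/
theorem eq_zero_of_invariant {Γ : Subgroup SL(2, ℤ)} [Finite (SL(2, ℤ) ⧸ Γ)] {h h' : ℍ → ℂ}
    (hh : CuspV 2 h) (hh' : CuspV 2 h')
    (hinv : ∀ γ ∈ Γ, ∀ z : ℍ, prim h (γ • z) + prim h' (UpperHalfPlane.J • (γ • z)) =
      prim h z + prim h' (UpperHalfPlane.J • z)) (τ : ℍ) : h τ = 0 := by
  have hG := hh.good_prim
  have hR := hh'.good_prim.refl hh'.prim_deriv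
  set F := prim h with hF
  set F' := prim h' with hF'
  -- first combination
  have A1 : Good (F + ES.refl F') := hG.add hR
  have d1 : ∀ τ : ℍ, HasDerivAt ((F + ES.refl F') ∘ ofComplex) (h τ + (-ES.refl h' τ)) τ := by
    intro τ
    exact (hh.prim_deriv τ).add (refl_hasDerivAt hh'.prim_deriv τ)
  have i1 : ∀ γ ∈ Γ, ∀ z : ℍ, ((F + ES.refl F') (γ • z)).re = ((F + ES.refl F') z).re := by
    intro γ hγ z
    have := congrArg Complex.re (hinv γ hγ z)
    simp only [Pi.add_apply, ES.refl, Complex.add_re, Complex.conj_re] at this ⊢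
    exact this
  have z1 := A1.deriv_eq_zero d1 i1
  -- second combination
  have A2 : Good ((-Complex.I) • (F + (-1 : ℂ) • ES.refl F')) := (hG.add (hR.smul (-1))).smul _
  have d2 : ∀ τ : ℍ, HasDerivAt (((-Complex.I) • (F + (-1 : ℂ) • ES.refl F')) ∘ ofComplex)
      ((-Complex.I) • (h τ + (-1 : ℂ) • (-ES.refl h' τ))) τ := by
    intro τ
    exact ((hh.prim_deriv τ).add
      ((refl_hasDerivAt hh'.prim_deriv τ).const_smul (-1 : ℂ))).const_smul _
  have i2 : ∀ γ ∈ Γ, ∀ z : ℍ, (((-Complex.I) • (F + (-1 : ℂ) • ES.refl F')) (γ • z)).re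
      = (((-Complex.I) • (F + (-1 : ℂ) • ES.refl F')) z).re := by
    intro γ hγ z
    have := congrArg Complex.im (hinv γ hγ z)
    simp only [Pi.add_apply, Pi.smul_apply, smul_eq_mul, ES.refl, Complex.add_re, Complex.mul_re,
      Complex.add_im, Complex.neg_re, Complex.neg_im, Complex.I_re, Complex.I_im,
      Complex.conj_re, Complex.conj_im, neg_zero, zero_sub, zero_mul,
      Complex.mul_im, Complex.one_re, Complex.one_im] at this ⊢
    linarith
  have z2 := A2.deriv_eq_zero d2 i2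
  have e1 := z1 τ
  have e2 := z2 τ
  simp only [smul_eq_mul] at e2
  have e3 : h τ + (-1 : ℂ) * (-ES.refl h' τ) = 0 :=
    (mul_eq_zero.mp e2).resolve_left (neg_ne_zero.mpr Complex.I_ne_zero)
  have e4 : (2 : ℂ) * h τ = 0 := by linear_combination e1 + e3
  simpa using e4

end scalar

/-! ### Vector valued primitives -/

section vec

variable {W : Type*} [AddCommGroup W] [Module ℂ W] [FiniteDimensional ℂ W]

/-- the normalised primitive of a vector valued function -/
def vprim (F : ℍ → W) (z : ℍ) : W :=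
  ∑ i, prim (fun w => (Module.finBasis ℂ W).coord i (F w)) z • Module.finBasis ℂ W i

/-- vector valued functions with cuspidal components -/
def VCusp (F : ℍ → W) : Prop := ∀ φ : W →ₗ[ℂ] ℂ, CuspV 2 (fun z => φ (F z))

lemma dual_vprim {F : ℍ → W} (hF : VCusp F) (φ : W →ₗ[ℂ] ℂ) (z : ℍ) :
    φ (vprim F z) = prim (fun w => φ (F w)) z := by
  have h1 : IsPrim (∑ i, φ (Module.finBasis ℂ W i) •
      (fun w => (Module.finBasis ℂ W).coord i (F w)))
      (∑ i, φ (Module.finBasis ℂ W i) • prim (fun w => (Module.finBasis ℂ W).coord i (F w))) :=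
    IsPrim.sum _ fun i _ => (hF _).isPrim.smul _
  have e : (∑ i, φ (Module.finBasis ℂ W i) •
      (fun w => (Module.finBasis ℂ W).coord i (F w))) = fun w => φ (F w) := by
    funext w
    rw [Finset.sum_apply]
    conv_rhs => rw [← (Module.finBasis ℂ W).sum_repr (F w), map_sum]
    refine Finset.sum_congr rfl fun i _ => ?_
    rw [map_smul, Pi.smul_apply, smul_eq_mul, smul_eq_mul, Module.Basis.coord_apply]
    ring
  rw [e] at h1
  rw [h1.prim_eq, vprim, map_sum, Finset.sum_apply]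
  refine Finset.sum_congr rfl fun i _ => ?_
  rw [map_smul, Pi.smul_apply, smul_eq_mul, smul_eq_mul]
  ring

omit [FiniteDimensional ℂ W] in
/-- two functions with the same derivatives differ by a constant -/
lemma vconst {P Q : ℍ → W}
    (hP : ∀ (φ : W →ₗ[ℂ] ℂ), ∃ d : ℍ → ℂ, (∀ τ : ℍ, HasDerivAt ((fun z => φ (P z)) ∘ ofComplex)
      (d τ) τ) ∧ (∀ τ : ℍ, HasDerivAt ((fun z => φ (Q z)) ∘ ofComplex) (d τ) τ)) (z w : ℍ) :
    P z - Q z = P w - Q w := by
  apply vec_ext
  intro φ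
  obtain ⟨d, h1, h2⟩ := hP φ
  rw [map_sub, map_sub]
  exact exists_const_of_deriv_eq h1 h2 z w

lemma vprim_deriv {F : ℍ → W} (hF : VCusp F) (φ : W →ₗ[ℂ] ℂ) (τ : ℍ) :
    HasDerivAt ((fun z => φ (vprim F z)) ∘ ofComplex) (φ (F τ)) τ := by
  have e : (fun z => φ (vprim F z)) = prim (fun w => φ (F w)) := by
    funext z; exact dual_vprim hF φ z
  rw [e]
  exact (hF φ).prim_deriv τ

lemma vprim_add {F G : ℍ → W} (hF : VCusp F) (hG : VCusp G) (z : ℍ) :
    vprim (F + G) z = vprim F z + vprim G z := by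
  have hFG : VCusp (F + G) := by
    intro φ
    have := (hF φ).add (hG φ)
    have e : (fun z => φ ((F + G) z)) = (fun z => φ (F z)) + fun z => φ (G z) := by
      funext z; simp
    rw [e]; exact this
  apply vec_ext
  intro φ
  rw [map_add, dual_vprim hF, dual_vprim hG, dual_vprim hFG]
  have e : (fun z => φ ((F + G) z)) = (fun z => φ (F z)) + fun z => φ (G z) := by
    funext z; simp
  rw [e, ((hF φ).isPrim.add (hG φ).isPrim).prim_eq]; rfl

lemma vprim_smul {F : ℍ → W} (c : ℂ) (hF : VCusp F) (z : ℍ) :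
    vprim (c • F) z = c • vprim F z := by
  have e : ∀ φ : W →ₗ[ℂ] ℂ, (fun z => φ ((c • F) z)) = c • (fun z => φ (F z)) := by
    intro φ; funext z; simp
  have hFG : VCusp (c • F) := by
    intro φ
    rw [e]; exact (hF φ).smul c
  apply vec_ext
  intro φ
  rw [map_smul, dual_vprim hF, dual_vprim hFG, e, ((hF φ).isPrim.smul c).prim_eq]; rfl

variable {N : ℕ} {ρ : M2 →* Module.End ℂ W}

omit [FiniteDimensional ℂ W] in
lemma vForms_VCusp {F : ℍ → W} (hF : F ∈ vForms N ρ 2) : VCusp F := hF.2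

/-- the primitive of a translate -/
lemma deriv_vprim_smul {F : ℍ → W} (hF : VCusp F) {A : M2} (hA : 0 < A.det) (φ : W →ₗ[ℂ] ℂ)
    (τ : ℍ) : HasDerivAt ((fun z => φ (vprim F (iGL A • z))) ∘ ofComplex)
      (φ (vslash 2 A F τ)) τ := by
  rw [dual_vslash 2 hA]
  exact hasDerivAt_comp_smul (fun τ => vprim_deriv hF φ τ) (det_iGL_pos hA) τ

/-- the period cocycle -/
def vper (ρ : M2 →* Module.End ℂ W) (F : ℍ → W) (γ : Gamma0 N) : W :=
  vprim F (iGL (gm γ) • UpperHalfPlane.I) - ρ (gm γ) (vprim F UpperHalfPlane.I)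

lemma vprim_gm_smul {F : ℍ → W} (hF : F ∈ vForms N ρ 2) (γ : Gamma0 N) (z : ℍ) :
    vprim F (iGL (gm γ) • z) = ρ (gm γ) (vprim F z) + vper ρ F γ := by
  have h := vconst (P := fun z => vprim F (iGL (gm γ) • z)) (Q := fun z => ρ (gm γ) (vprim F z))
    (fun φ => ⟨fun τ => φ (vslash 2 (gm γ) F τ),
      fun τ => deriv_vprim_smul hF.2 (det_gm_pos γ) φ τ, fun τ => by
        have := vprim_deriv hF.2 (φ ∘ₗ ρ (gm γ)) τ
        show HasDerivAt _ (φ (vslash 2 (gm γ) F τ)) _
        rw [hF.1 γ τ]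
        exact this⟩) z UpperHalfPlane.I
  have h' : vprim F (iGL (gm γ) • z) - ρ (gm γ) (vprim F z) = vper ρ F γ := h
  rw [← h']; abel

lemma iGL_gm_mul (γ δ : Gamma0 N) : iGL (gm (γ * δ)) = iGL (gm γ) * iGL (gm δ) := by
  rw [gm_mul, iGL_mul (det_gm_pos γ) (det_gm_pos δ)]

lemma iGL_neg_one_smul (z : ℍ) : iGL (-1) • z = z := by
  have h : (-1 : M2) = ((-1 : SL(2, ℤ)) : M2) := by simp
  rw [h, iGL_SL]
  show (-1 : SL(2, ℤ)) • z = z
  simp

theorem vper_mem {F : ℍ → W} (hF : F ∈ vForms N ρ 2) (hρ : ρ (-1) = 1) :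
    (vper ρ F : Gamma0 N → W) ∈ Z1 N ρ := by
  refine ⟨fun γ δ => ?_, fun γ hγ => ?_⟩
  · have h1 := vprim_gm_smul hF (γ * δ) UpperHalfPlane.I
    have h2 := vprim_gm_smul hF δ UpperHalfPlane.I
    have h3 := vprim_gm_smul hF γ (iGL (gm δ) • UpperHalfPlane.I)
    rw [iGL_gm_mul, mul_smul, h3, h2, rho_gm_mul, map_add] at h1
    have h4 : ρ (gm γ) (ρ (gm δ) (vprim F UpperHalfPlane.I)) + (vper ρ F γ + ρ (gm γ) (vper ρ F δ))
      = ρ (gm γ) (ρ (gm δ) (vprim F UpperHalfPlane.I)) + vper ρ F (γ * δ) := by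
      rw [← h1]; abel
    exact (add_left_cancel h4).symm
  · have h1 := vprim_gm_smul hF γ UpperHalfPlane.I
    rw [hγ, iGL_neg_one_smul, hρ] at h1
    have : vprim F UpperHalfPlane.I + 0 = vprim F UpperHalfPlane.I + vper ρ F γ := by
      rw [add_zero]; exact h1
    exact (add_left_cancel this).symm

lemma vper_add {F G : ℍ → W} (hF : VCusp F) (hG : VCusp G) (γ : Gamma0 N) :
    vper ρ (F + G) γ = vper ρ F γ + vper ρ G γ := by
  simp only [vper, vprim_add hF hG, map_add]; abel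

lemma vper_smul {F : ℍ → W} (c : ℂ) (hF : VCusp F) (γ : Gamma0 N) :
    vper ρ (c • F) γ = c • vper ρ F γ := by
  simp only [vper, vprim_smul c hF, map_smul, smul_sub]

variable (N ρ) in
/-- the period cocycle as a linear map -/
def perZ (hρ : ρ (-1) = 1) : vForms N ρ 2 →ₗ[ℂ] Z1 N ρ where
  toFun F := ⟨vper ρ F.1, vper_mem F.2 hρ⟩
  map_add' F G := by
    apply Subtype.ext
    funext γ
    exact vper_add F.2.2 G.2.2 γ
  map_smul' c F := by
    apply Subtype.ext
    funext γ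
    exact vper_smul c F.2.2 γ

variable (N ρ) in
/-- the Eichler-Shimura map -/
def perH (hρ : ρ (-1) = 1) : vForms N ρ 2 →ₗ[ℂ] H1 N ρ := (Submodule.mkQ _) ∘ₗ perZ N ρ hρ

lemma perH_apply (hρ : ρ (-1) = 1) (F : vForms N ρ 2) :
    perH N ρ hρ F = Submodule.Quotient.mk (perZ N ρ hρ F) := rfl

variable {ι : Type*} [Fintype ι] (T : HFam N ι)

/-- Hecke equivariance of the period cocycle modulo coboundaries -/
theorem vper_fun {F : ℍ → W} (hF : F ∈ vForms N ρ 2) :
    ∃ c : W, (vper ρ (T.fun ρ 2 F) : Gamma0 N → W) = T.op ρ (vper ρ F) + del N ρ c := by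
  have hTF := fun_mem T hF
  let Q : ℍ → W := fun z => ∑ i, ρ (T.α i).adjugate (vprim F (iGL (T.α i) • z))
  have hQ : ∀ (γ : Gamma0 N) (z : ℍ), Q (iGL (gm γ) • z) = ρ (gm γ) (Q z) + T.op ρ (vper ρ F) γ := by
    intro γ z
    show ∑ i, ρ (T.α i).adjugate (vprim F (iGL (T.α i) • iGL (gm γ) • z)) = _
    rw [T.op_apply, map_sum, ← Equiv.sum_comp (T.perm γ)
      (fun i => ρ (gm γ) (ρ (T.α i).adjugate (vprim F (iGL (T.α i) • z)))),
      ← Finset.sum_add_distrib]
    refine Finset.sum_congr rfl fun i _ => ?_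
    rw [← mul_smul, ← iGL_mul (T.det_pos i) (det_gm_pos γ), T.spec,
      iGL_mul (det_gm_pos _) (T.det_pos _), mul_smul, vprim_gm_smul hF, map_add, rho_adj_tau,
      T.perm_apply]
  have hconst := fun z => vconst (P := vprim (T.fun ρ 2 F)) (Q := Q)
    (fun φ => ⟨fun τ => φ (T.fun ρ 2 F τ), fun τ => vprim_deriv hTF.2 φ τ, fun τ => by
      have e : (fun z => φ (Q z)) ∘ ofComplex =
          ∑ i, ((fun z => (φ ∘ₗ ρ (T.α i).adjugate) (vprim F (iGL (T.α i) • z))) ∘ ofComplex) := by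
        funext w
        rw [Finset.sum_apply]
        show φ (∑ i, _) = _
        rw [map_sum]
        rfl
      have e2 : φ (T.fun ρ 2 F τ) =
          ∑ i, (φ ∘ₗ ρ (T.α i).adjugate) (vslash 2 (T.α i) F τ) := by
        show φ (∑ i, _) = _
        rw [map_sum]; rfl
      show HasDerivAt _ (φ (T.fun ρ 2 F τ)) _
      rw [e, e2]
      exact HasDerivAt.sum fun i _ => deriv_vprim_smul hF.2 (T.det_pos i) _ τ⟩) z UpperHalfPlane.I
  refine ⟨-(vprim (T.fun ρ 2 F) UpperHalfPlane.I - Q UpperHalfPlane.I), ?_⟩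
  funext γ
  have h1 := vprim_gm_smul hTF γ UpperHalfPlane.I
  have h2 := hQ γ UpperHalfPlane.I
  have h3 := hconst (iGL (gm γ) • UpperHalfPlane.I)
  rw [Pi.add_apply, del_apply, map_neg, map_sub]
  have h4 : vper ρ (T.fun ρ 2 F) γ = vprim (T.fun ρ 2 F) (iGL (gm γ) • UpperHalfPlane.I) -
      ρ (gm γ) (vprim (T.fun ρ 2 F) UpperHalfPlane.I) := rfl
  have h5 : T.op ρ (vper ρ F) γ = Q (iGL (gm γ) • UpperHalfPlane.I) -
    ρ (gm γ) (Q UpperHalfPlane.I) := by rw [h2]; abel
  rw [h4, h5]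
  have h6 : vprim (T.fun ρ 2 F) (iGL (gm γ) • UpperHalfPlane.I) =
      Q (iGL (gm γ) • UpperHalfPlane.I) +
        (vprim (T.fun ρ 2 F) UpperHalfPlane.I - Q UpperHalfPlane.I) := by
    rw [← h3]; abel
  rw [h6]; abel

/-- **Hecke equivariance** of the Eichler-Shimura map. -/
theorem perH_opF (hρ : ρ (-1) = 1) (F : vForms N ρ 2) :
    perH N ρ hρ (T.opF ρ 2 F) = T.opH ρ (perH N ρ hρ F) := by
  rw [perH_apply, perH_apply, T.opH_mk, Submodule.Quotient.eq, Submodule.mem_comap]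
  obtain ⟨c, hc⟩ := vper_fun T F.2
  refine ⟨c, ?_⟩
  show del N ρ c = vper ρ (T.fun ρ 2 F.1) - T.op ρ (vper ρ F.1)
  rw [hc]; abel

end vec

end Fermat.Agent.H24ES
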