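import Mathlib
import Fermat.Agent.H24ES.Period
import Fermat.Agent.H01.Finite

/-!
# Vector valued Eichler-Shimura: the involution `ι` and injectivity
-/

set_option autoImplicit false

noncomputable section

namespace Fermat.Agent.H24ES

open UpperHalfPlane hiding I
open CongruenceSubgroup Matrix ModularForm Filter Function
open Fermat.Agent.H16 Fermat.Agent.ES
open scoped MatrixGroups Manifold Topology

/-! ### Conjugation by `ε = diag(-1,1)` -/

/-- `diag(-1,1)` -/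
def eps : M2 := !![-1, 0; 0, 1]

lemma eps_mul_eps : eps * eps = 1 := by
  ext i j
  fin_cases i <;> fin_cases j <;> simp [eps, Matrix.mul_apply, Fin.sum_univ_two]

lemma adj_eps : eps.adjugate = -eps := by
  rw [eps, Matrix.adjugate_fin_two_of]
  ext i j
  fin_cases i <;> fin_cases j <;> simp

lemma det_eps : eps.det = -1 := by simp [eps, Matrix.det_fin_two_of]

/-- conjugation by `eps` -/
def cjM (A : M2) : M2 := eps * A * eps

lemma cjM_mul (A B : M2) : cjM (A * B) = cjM A * cjM B := by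
  unfold cjM
  calc eps * (A * B) * eps = eps * A * (1 * B) * eps := by
        rw [one_mul]; simp only [mul_assoc]
    _ = eps * A * eps * (eps * B * eps) := by
        rw [← eps_mul_eps]; simp only [mul_assoc]

lemma cjM_one : cjM 1 = 1 := by rw [cjM, mul_one, eps_mul_eps]

lemma cjM_neg_one : cjM (-1) = -1 := by
  rw [cjM, mul_neg, mul_one, neg_mul, eps_mul_eps]

lemma cjM_cjM (A : M2) : cjM (cjM A) = A := by
  unfold cjM
  calc eps * (eps * A * eps) * eps = (eps * eps) * A * (eps * eps) := by simp only [mul_assoc]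
    _ = A := by rw [eps_mul_eps, one_mul, mul_one]

lemma det_cjM (A : M2) : (cjM A).det = A.det := by
  rw [cjM, Matrix.det_mul, Matrix.det_mul, det_eps]; ring

lemma cjM_eq (A : M2) : cjM A = !![A 0 0, -A 0 1; -A 1 0, A 1 1] := by
  ext i j
  fin_cases i <;> fin_cases j <;>
    simp [cjM, eps, Matrix.mul_apply, Fin.sum_univ_two, Matrix.vecMul, dotProduct]

lemma adj_cjM (A : M2) : (cjM A).adjugate = eps * A.adjugate * eps := by
  rw [cjM, Matrix.adjugate_mul_distrib, Matrix.adjugate_mul_distrib, adj_eps]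
  simp only [neg_mul, mul_neg, neg_neg, mul_assoc]

lemma eps_mul_cjM (A : M2) : eps * cjM A = A * eps := by
  unfold cjM
  calc eps * (eps * A * eps) = (eps * eps) * A * eps := by simp only [mul_assoc]
    _ = A * eps := by rw [eps_mul_eps, one_mul]

variable {N : ℕ}

/-- conjugation by `eps` on `Γ₀(N)` -/
def cj (γ : Gamma0 N) : Gamma0 N :=
  mkG (cjM (gm γ)) (by rw [det_cjM, det_gm]) (by
    rw [cjM_eq]
    show (N : ℤ) ∣ -(gm γ 1 0)
    exact (dvd_neg).mpr (dvd_gm γ))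

@[simp] lemma gm_cj (γ : Gamma0 N) : gm (cj γ) = cjM (gm γ) := rfl

lemma cj_mul (γ δ : Gamma0 N) : cj (γ * δ) = cj γ * cj δ := by
  apply gm_injective
  rw [gm_cj, gm_mul, gm_mul, gm_cj, gm_cj, cjM_mul]

lemma cj_cj (γ : Gamma0 N) : cj (cj γ) = γ := by
  apply gm_injective
  rw [gm_cj, gm_cj, cjM_cjM]

lemma J_smul_gm (γ : Gamma0 N) (z : ℍ) :
    UpperHalfPlane.J • (iGL (gm γ) • z) = iGL (gm (cj γ)) • (UpperHalfPlane.J • z) := by
  have h := J_smul_SL (γ : SL(2, ℤ)) z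
  rw [iGL_gm, iGL_gm]
  have e : ModularCurve.Period.jConjSL (γ : SL(2, ℤ)) = ((cj γ : Gamma0 N) : SL(2, ℤ)) := by
    apply Subtype.ext
    rw [ModularCurve.Period.jConjSL_coe]
    exact (cjM_eq _).symm
  rw [e] at h
  exact h

section coh

variable {R V : Type*} [CommRing R] [AddCommGroup V] [Module R V] (ρ : M2 →* Module.End R V)

lemma rho_eps_eps (v : V) : ρ eps (ρ eps v) = v := by
  have h := congrArg ρ eps_mul_eps
  rw [map_mul, map_one] at h
  exact LinearMap.congr_fun h v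

lemma rho_eps_cj (γ : Gamma0 N) (v : V) : ρ eps (ρ (gm (cj γ)) v) = ρ (gm γ) (ρ eps v) := by
  have h := congrArg ρ (eps_mul_cjM (gm γ))
  rw [map_mul, map_mul] at h
  exact LinearMap.congr_fun h v

/-- the involution on functions -/
def iota (N : ℕ) : (Gamma0 N → V) →ₗ[R] (Gamma0 N → V) where
  toFun u γ := ρ eps (u (cj γ))
  map_add' u v := by funext γ; simp
  map_smul' c u := by funext γ; simp

@[simp] lemma iota_apply (u : Gamma0 N → V) (γ : Gamma0 N) : iota ρ N u γ = ρ eps (u (cj γ)) := rfl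

lemma iota_iota (u : Gamma0 N → V) : iota ρ N (iota ρ N u) = u := by
  funext γ
  rw [iota_apply, iota_apply, cj_cj, rho_eps_eps]

lemma iota_mem_Z1 {u : Gamma0 N → V} (hu : u ∈ Z1 N ρ) : iota ρ N u ∈ Z1 N ρ := by
  refine ⟨fun γ δ => ?_, fun γ hγ => ?_⟩
  · rw [iota_apply, iota_apply, iota_apply, cj_mul, hu.1, map_add, rho_eps_cj]
  · rw [iota_apply, hu.2 _ (by rw [gm_cj, hγ, cjM_neg_one]), map_zero]

lemma iota_del (w : V) : iota ρ N (del N ρ w) = del N ρ (ρ eps w) := by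
  funext γ
  rw [iota_apply, del_apply, del_apply, map_sub, rho_eps_cj]

lemma iota_mem_B1 {u : Gamma0 N → V} (hu : u ∈ B1 N ρ) : iota ρ N u ∈ B1 N ρ := by
  obtain ⟨w, rfl⟩ := hu
  exact ⟨_, (iota_del ρ w).symm⟩

/-- the involution on cocycles -/
def iotaZ : Z1 N ρ →ₗ[R] Z1 N ρ := (iota ρ N).restrict fun _ hu => iota_mem_Z1 ρ hu

/-- the involution on cohomology -/
def iotaH : H1 N ρ →ₗ[R] H1 N ρ :=
  Submodule.mapQ _ _ (iotaZ ρ) (by
    intro u hu
    rw [Submodule.mem_comap] at hu ⊢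
    exact iota_mem_B1 ρ hu)

@[simp] lemma iotaH_mk (u : Z1 N ρ) :
    iotaH ρ (Submodule.Quotient.mk u) = Submodule.Quotient.mk (iotaZ ρ u) := rfl

lemma iotaH_iotaH (x : H1 N ρ) : iotaH ρ (iotaH ρ x) = x := by
  obtain ⟨u, rfl⟩ := Submodule.Quotient.mk_surjective _ x
  rw [iotaH_mk, iotaH_mk]
  congr 1
  apply Subtype.ext
  exact iota_iota ρ u.1

variable {ι : Type*} [Fintype ι]

/-- the conjugate family -/
def HFam.cj (F : HFam N ι) : HFam N ι where
  α i := cjM (F.α i)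
  det_pos i := by rw [det_cjM]; exact F.det_pos i
  σ γ i := F.σ (H24ES.cj γ) i
  τ γ i := H24ES.cj (F.τ (H24ES.cj γ) i)
  spec γ i := by
    rw [gm_cj, ← cjM_mul, ← F.spec, cjM_mul, gm_cj, cjM_cjM]
  uniq i j γ h := by
    apply F.uniq i j (H24ES.cj γ)
    rw [gm_cj, ← cjM_cjM (F.α i), h, cjM_mul, cjM_cjM]

lemma HFam.cj_op (F : HFam N ι) (u : Gamma0 N → V) :
    F.cj.op ρ (iota ρ N u) = iota ρ N (F.op ρ u) := by
  funext γ
  rw [HFam.op_apply, iota_apply, HFam.op_apply, map_sum]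
  refine Finset.sum_congr rfl fun i _ => ?_
  show ρ (cjM (F.α i)).adjugate (ρ eps (u (H24ES.cj (H24ES.cj (F.τ (H24ES.cj γ) i))))) = _
  rw [cj_cj, adj_cjM, map_mul, map_mul]
  show ρ eps (ρ (F.α i).adjugate (ρ eps (ρ eps _))) = _
  rw [rho_eps_eps]

lemma HFam.cj_opH (F : HFam N ι) (x : H1 N ρ) :
    F.cj.opH ρ (iotaH ρ x) = iotaH ρ (F.opH ρ x) := by
  obtain ⟨u, rfl⟩ := Submodule.Quotient.mk_surjective _ x
  rw [iotaH_mk, HFam.opH_mk, HFam.opH_mk, iotaH_mk]
  congr 1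
  apply Subtype.ext
  exact F.cj_op ρ u.1

/-- families with the same underlying set of matrices -/
theorem HFam.opH_eq_of_cover {ι' : Type*} [Fintype ι'] (F : HFam N ι) (F' : HFam N ι')
    (h : ∀ i, ∃ (j : ι') (γ : Gamma0 N), F.α i = gm γ * F'.α j)
    (h' : ∀ j, ∃ (i : ι) (γ : Gamma0 N), F'.α j = gm γ * F.α i) : F.opH ρ = F'.opH ρ := by
  choose π g hg using h
  have hinj : Function.Injective π := by
    intro i i' hii
    apply F.uniq i i' (g i * (g i')⁻¹)
    rw [hg i, hg i', hii, gm_mul, mul_assoc, ← mul_assoc (gm (g i')⁻¹), gm_inv, adj_mul_gm, one_mul]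
  have hsurj : Function.Surjective π := by
    intro j
    obtain ⟨i, γ, hγ⟩ := h' j
    refine ⟨i, ?_⟩
    symm
    apply F'.uniq j (π i) (γ * g i)
    rw [hγ, hg i, gm_mul, mul_assoc]
  exact F.opH_eq ρ F' (Equiv.ofBijective π ⟨hinj, hsurj⟩) g hg

/-- `ι` commutes with `T_ℓ` -/
theorem iotaH_TF {ℓ : ℕ} (hℓ : ℓ.Prime) (hℓN : ¬ ℓ ∣ N) (x : H1 N ρ) :
    (TF N ℓ hℓ hℓN).opH ρ (iotaH ρ x) = iotaH ρ ((TF N ℓ hℓ hℓN).opH ρ x) := by
  rw [← HFam.cj_opH]
  have key : (TF N ℓ hℓ hℓN).opH ρ = (TF N ℓ hℓ hℓN).cj.opH ρ := by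
    have h1 : ∀ i, (N : ℤ) ∣ (tα ℓ i) 1 0 := by
      intro i; cases i with
      | none => simp [diM]
      | some j => simp [upM]
    have h2 : ∀ j, ∃ (i : Option (Fin ℓ)) (γ : Gamma0 N), cjM (tα ℓ j) = gm γ * tα ℓ i := by
      intro j
      apply exists_tα hℓ hℓN
      · rw [det_cjM, det_tα]
      · rw [cjM_eq]
        show (N : ℤ) ∣ -(tα ℓ j 1 0)
        exact (dvd_neg).mpr (h1 j)
    refine HFam.opH_eq_of_cover ρ _ _ ?_ h2
    intro i
    obtain ⟨j, γ, hγ⟩ := h2 i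
    refine ⟨j, H24ES.cj γ, ?_⟩
    show tα ℓ i = gm (H24ES.cj γ) * cjM (tα ℓ j)
    rw [gm_cj, ← cjM_mul, ← hγ, cjM_cjM]
  rw [key]

end coh

/-! ### Injectivity -/

section inj

variable {W : Type*} [AddCommGroup W] [Module ℂ W] [FiniteDimensional ℂ W]
  {ρ : M2 →* Module.End ℂ W}

/-- Key injectivity statement: if `u_F + ι u_G` is a coboundary then `F = 0`. -/
theorem eq_zero_of_coboundary (Γ' : Subgroup SL(2, ℤ)) [Finite (SL(2, ℤ) ⧸ Γ')]
    (h1 : Γ' ≤ Gamma0 N) (h2 : ∀ γ ∈ Γ', ρ (γ : M2) = 1)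
    {F G : ℍ → W} (hF : F ∈ vForms N ρ 2) (hG : G ∈ vForms N ρ 2)
    {w : W} (hw : (vper ρ F : Gamma0 N → W) + iota ρ N (vper ρ G) = del N ρ w) : F = 0 := by
  funext τ
  show F τ = 0
  apply vec_ext
  intro φ
  rw [map_zero]
  have hG' : CuspV 2 (fun z => (φ ∘ₗ ρ eps) (G z)) := hG.2 _
  refine eq_zero_of_invariant (Γ := Γ') (hF.2 φ) hG' ?_ τ
  intro γ hγ z
  have hγ0 := h1 hγ
  let g : Gamma0 N := ⟨γ, hγ0⟩
  have hgm : iGL (gm g) • z = γ • z := by rw [iGL_gm]; rfl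
  have e1 := vprim_gm_smul hF g z
  have e2 := vprim_gm_smul hG (cj g) (UpperHalfPlane.J • z)
  rw [← J_smul_gm] at e2
  have e3 := congrArg (ρ eps) e2
  rw [map_add, rho_eps_cj] at e3
  have hρ : ρ (gm g) = 1 := h2 γ hγ
  have e4 := congrFun hw g
  rw [Pi.add_apply, iota_apply, del_apply, hρ] at e4
  rw [hρ] at e1 e3
  simp only [Module.End.one_apply, sub_self] at e1 e3 e4
  have e5 : vprim F (iGL (gm g) • z) + ρ eps (vprim G (UpperHalfPlane.J • iGL (gm g) • z)) =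
      vprim F z + ρ eps (vprim G (UpperHalfPlane.J • z)) := by
    rw [e1, e3]
    calc vprim F z + vper ρ F g + (ρ eps (vprim G (UpperHalfPlane.J • z)) +
          ρ eps (vper ρ G (cj g)))
        = vprim F z + ρ eps (vprim G (UpperHalfPlane.J • z)) +
          (vper ρ F g + ρ eps (vper ρ G (cj g))) := by abel
      _ = _ := by rw [e4, add_zero]
  have e6 := congrArg φ e5
  rw [hgm, map_add, map_add] at e6
  have h3 : ∀ z, φ (ρ eps (vprim G z)) = prim (fun z => (φ ∘ₗ ρ eps) (G z)) z := fun z =>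
    dual_vprim hG.2 (φ ∘ₗ ρ eps) z
  rw [dual_vprim hF.2, dual_vprim hF.2, h3, h3] at e6
  exact e6

variable (N ρ) in
/-- the two-sided Eichler-Shimura map `(F, G) ↦ [u_F] + ι [u_G]` -/
def ESmap (hρ : ρ (-1) = 1) : (vForms N ρ 2 × vForms N ρ 2) →ₗ[ℂ] H1 N ρ :=
  LinearMap.coprod (perH N ρ hρ) ((iotaH ρ) ∘ₗ (perH N ρ hρ))

lemma ESmap_apply (hρ : ρ (-1) = 1) (p : vForms N ρ 2 × vForms N ρ 2) :
    ESmap N ρ hρ p = perH N ρ hρ p.1 + iotaH ρ (perH N ρ hρ p.2) := rfl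

theorem ESmap_injective (hρ : ρ (-1) = 1) (Γ' : Subgroup SL(2, ℤ)) [Finite (SL(2, ℤ) ⧸ Γ')]
    (h1 : Γ' ≤ Gamma0 N) (h2 : ∀ γ ∈ Γ', ρ (γ : M2) = 1) :
    Function.Injective (ESmap N ρ hρ) := by
  have key : ∀ F G : vForms N ρ 2, perH N ρ hρ F + iotaH ρ (perH N ρ hρ G) = 0 → F = 0 := by
    intro F G h
    rw [perH_apply, perH_apply, iotaH_mk, ← Submodule.Quotient.mk_add,
      Submodule.Quotient.mk_eq_zero, Submodule.mem_comap] at h
    obtain ⟨w, hw⟩ := h
    apply Subtype.ext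
    exact eq_zero_of_coboundary Γ' h1 h2 F.2 G.2 hw.symm
  rw [injective_iff_map_eq_zero]
  rintro ⟨F, G⟩ h
  rw [ESmap_apply] at h
  have hF := key F G h
  have h' : perH N ρ hρ G + iotaH ρ (perH N ρ hρ 0) = 0 := by
    rw [hF, map_zero, zero_add] at h
    rw [map_zero, map_zero, add_zero]
    have := congrArg (iotaH ρ) h
    rwa [iotaH_iotaH, map_zero] at this
  have hG := key G 0 h'
  rw [hF, hG]; rfl

/-- **Hecke equivariance** of the two-sided Eichler-Shimura map. -/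
theorem ESmap_TF (hρ : ρ (-1) = 1) {ℓ : ℕ} (hℓ : ℓ.Prime) (hℓN : ¬ ℓ ∣ N)
    (p : vForms N ρ 2 × vForms N ρ 2) :
    ESmap N ρ hρ ((TF N ℓ hℓ hℓN).opF ρ 2 p.1, (TF N ℓ hℓ hℓN).opF ρ 2 p.2) =
      (TF N ℓ hℓ hℓN).opH ρ (ESmap N ρ hρ p) := by
  rw [ESmap_apply, ESmap_apply, map_add, iotaH_TF, ← perH_opF, ← perH_opF]

end inj

/-! ### Finiteness -/

section finite

variable {R V : Type*} [CommRing R] [AddCommGroup V] [Module R V]

/-- evaluation at finitely many generators is injective on cocycles -/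
theorem exists_eval_injective (N : ℕ) [NeZero N] (ρ : M2 →* Module.End R V) :
    ∃ s : Finset (Gamma0 N), Function.Injective
      (LinearMap.pi (fun i : s => (LinearMap.proj (R := R) (φ := fun _ : Gamma0 N => V)
        (i : Gamma0 N)) ∘ₗ (Z1 N ρ).subtype)) := by
  obtain ⟨s, hs⟩ := (Group.fg_def.mp (inferInstance : Group.FG (Gamma0 N)) :
    (⊤ : Subgroup (Gamma0 N)).FG)
  refine ⟨s, ?_⟩
  rw [injective_iff_map_eq_zero]
  rintro ⟨u, hu⟩ h
  apply Subtype.ext
  funext γ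
  have hmem : γ ∈ Subgroup.closure (s : Set (Gamma0 N)) := by rw [hs]; trivial
  show u γ = 0
  induction hmem using Subgroup.closure_induction with
  | mem x hx => exact congrFun h ⟨x, hx⟩
  | one => exact Z1.one hu
  | mul x y _ _ hx hy => rw [hu.1, hx, hy, map_zero, add_zero]
  | inv x _ hx => rw [Z1.inv hu, hx, map_zero, neg_zero]

instance finite_Z1 (N : ℕ) [NeZero N] (ρ : M2 →* Module.End R V) [IsNoetherianRing R]
    [Module.Finite R V] : Module.Finite R (Z1 N ρ) := by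
  obtain ⟨s, hs⟩ := exists_eval_injective N ρ
  exact Module.Finite.of_injective _ hs

instance finite_H1 (N : ℕ) [NeZero N] (ρ : M2 →* Module.End R V) [IsNoetherianRing R]
    [Module.Finite R V] : Module.Finite R (H1 N ρ) := inferInstance

end finite

/-- finite dimensionality of spaces of vector valued forms of weight two -/
theorem finiteDimensional_vForms {W : Type*} [AddCommGroup W] [Module ℂ W]
    [FiniteDimensional ℂ W] [NeZero N] {ρ : M2 →* Module.End ℂ W} (hρ : ρ (-1) = 1)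
    (Γ' : Subgroup SL(2, ℤ)) [Finite (SL(2, ℤ) ⧸ Γ')]
    (h1 : Γ' ≤ Gamma0 N) (h2 : ∀ γ ∈ Γ', ρ (γ : M2) = 1) :
    FiniteDimensional ℂ (vForms N ρ 2) := by
  have hinj := ESmap_injective hρ Γ' h1 h2
  have h3 : Function.Injective (perH N ρ hρ) := by
    rw [injective_iff_map_eq_zero]
    intro F hF
    have : ESmap N ρ hρ (F, 0) = 0 := by rw [ESmap_apply]; simp [hF]
    have := (injective_iff_map_eq_zero _).mp hinj _ this
    exact congrArg Prod.fst this
  exact Module.Finite.of_injective _ h3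

/-! ### Representations factoring through `GL₂(ℤ/f)` -/

section ofGL

variable {W : Type*} [AddCommGroup W] [Module ℂ W] {f : ℕ}
  (r : GL (Fin 2) (ZMod f) →* Module.End ℂ W)

/-- the subgroup acting trivially -/
def trivGrp (N f : ℕ) : Subgroup SL(2, ℤ) := Gamma0 N ⊓ Gamma f

instance finite_trivGrp (N f : ℕ) [NeZero N] [NeZero f] : Finite (SL(2, ℤ) ⧸ trivGrp N f) := by
  have : (trivGrp N f).FiniteIndex := by
    unfold trivGrp; infer_instance
  exact Subgroup.finite_quotient_of_finiteIndex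

lemma trivGrp_le (N f : ℕ) : trivGrp N f ≤ Gamma0 N := inf_le_left

lemma trivGrp_act {γ : SL(2, ℤ)} (hγ : γ ∈ trivGrp N f) : ofGL f r (γ : M2) = 1 := by
  have h1 : redM f (γ : M2) = redM f 1 := by
    have h2 := (Gamma_mem' (N := f) (γ := γ)).mp hγ.2
    have h3 := congrArg (fun g : SL(2, ZMod f) => (g : Matrix (Fin 2) (Fin 2) (ZMod f))) h2
    rw [map_one]
    exact h3
  rw [ofGL_congr r h1, map_one]

variable [FiniteDimensional ℂ W]

/-- **Vector valued Eichler-Shimura**, final form for representations of `GL₂(ℤ/f)`. -/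
theorem ES_final [NeZero N] [NeZero f] (hr : r (-1) = 1) :
    Function.Injective (ESmap N (ofGL f r) (ofGL_neg_one r hr)) ∧
    FiniteDimensional ℂ (vForms N (ofGL f r) 2) ∧
    ∀ (ℓ : ℕ) (hℓ : ℓ.Prime) (hℓN : ¬ ℓ ∣ N) (p : vForms N (ofGL f r) 2 × vForms N (ofGL f r) 2),
      ESmap N (ofGL f r) (ofGL_neg_one r hr)
        ((TF N ℓ hℓ hℓN).opF (ofGL f r) 2 p.1, (TF N ℓ hℓ hℓN).opF (ofGL f r) 2 p.2) =
      (TF N ℓ hℓ hℓN).opH (ofGL f r) (ESmap N (ofGL f r) (ofGL_neg_one r hr) p) :=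
  ⟨ESmap_injective _ (trivGrp N f) (trivGrp_le N f) (fun _ h => trivGrp_act r h),
    finiteDimensional_vForms (ofGL_neg_one r hr) (trivGrp N f) (trivGrp_le N f)
      (fun _ h => trivGrp_act r h),
    fun _ hℓ hℓN p => ESmap_TF _ hℓ hℓN p⟩

end ofGL

end Fermat.Agent.H24ES
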